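import Fermat.Agent.Duality.Coh.Cor

/-!
# The double coset formula for corestriction
-/

set_option autoImplicit false

noncomputable section

namespace Fermat.Agent.Duality.Coh

variable {G : Type} [Group G] {D : Type} [Group D]

/-- The preimage of `g H g⁻¹` under `φ`. -/
def twisted (φ : D →* G) (g : G) (H : Subgroup G) : Subgroup D :=
  H.comap ((MulAut.conj g⁻¹).toMonoidHom.comp φ)

lemma mem_twisted {φ : D →* G} {g : G} {H : Subgroup G} {d : D} :
    d ∈ twisted φ g H ↔ g⁻¹ * φ d * g ∈ H := by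
  simp [twisted]

/-- The map `d ↦ g⁻¹ φ(d) g` into `H`. -/
def twistHom (φ : D →* G) (g : G) (H : Subgroup G) : twisted φ g H →* H where
  toFun d := ⟨g⁻¹ * φ d * g, mem_twisted.mp d.2⟩
  map_one' := Subtype.ext (by simp)
  map_mul' a b := Subtype.ext (by simp [mul_assoc])

@[simp] lemma coe_twistHom (φ : D →* G) (g : G) (H : Subgroup G) (d : twisted φ g H) :
    (twistHom φ g H d : G) = g⁻¹ * φ d * g := rfl

variable {𝓛 : Levels G} {𝓜 : Levels D} {φ : D →* G} (hφ : 𝓜.Compat 𝓛 φ)

include hφ in
lemma ok_twisted {H : Subgroup G} (hH : 𝓛.ok H) (g : G) : 𝓜.ok (twisted φ g H) := by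
  obtain ⟨N, hN, hNn, hNH⟩ := 𝓛.exists_normal hH
  refine 𝓜.mono (hφ N hN) fun d hd => ?_
  rw [mem_twisted]
  exact hNH (by simpa using hNn.conj_mem _ hd g⁻¹)

include hφ in
lemma compat_twistHom (g : G) (H : Subgroup G) :
    (𝓜.restrict (twisted φ g H)).Compat (𝓛.restrict H) (twistHom φ g H) := by
  rintro U ⟨V, hV, hVU⟩
  obtain ⟨N, hN, hNn, hNV⟩ := 𝓛.exists_normal hV
  refine ⟨N.comap φ, hφ N hN, fun d hd => hVU ?_⟩
  show g⁻¹ * φ (d : D) * g ∈ V
  exact hNV (by simpa using hNn.conj_mem _ hd g⁻¹)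

variable {A B : Type} [AddCommGroup A] [DistribMulAction G A] [AddCommGroup B]
  [DistribMulAction D B] {ψ : A →+ B} (hψ : IsEquivariant φ ψ)

/-- The coefficient map at the double coset of `g`. -/
def twistMap (ψ : A →+ B) (g : G) : A →+ B := ψ.comp (DistribSMul.toAddMonoidHom A g)

include hψ in
lemma isEquivariant_twistMap (g : G) (H : Subgroup G) :
    IsEquivariant (twistHom φ g H) (twistMap ψ g) := fun d a => by
  show ψ (g • (twistHom φ g H d : G) • a) = (d : D) • ψ (g • a)
  rw [← hψ, smul_smul, smul_smul, coe_twistHom]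
  congr 2
  group

/-- Localisation at the double coset of `g` in degree two. -/
def locTwist₂ (g : G) (H : Subgroup G) :
    H2 (𝓛.restrict H) A →+ H2 (𝓜.restrict (twisted φ g H)) B :=
  H2.map (compat_twistHom hφ g H) (isEquivariant_twistMap hψ g H)

/-- Localisation at the double coset of `g` in degree one. -/
def locTwist₁ (g : G) (H : Subgroup G) :
    H1 (𝓛.restrict H) A →+ H1 (𝓜.restrict (twisted φ g H)) B :=
  H1.map (compat_twistHom hφ g H) (isEquivariant_twistMap hψ g H)

variable {H : Subgroup G} [Fintype (G ⧸ H)]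

/-- Corestriction of two-cochains with respect to an arbitrary section. -/
def corSec (s : G ⧸ H → G) (hs : ∀ x, (s x : G ⧸ H) = x) (f : H → H → A) : G → G → A :=
  fun g h => ∑ x : G ⧸ H, (s (g • h • x)) •
    f ⟨(s (g • h • x))⁻¹ * (g * s (h • x)), by
        rw [← QuotientGroup.eq, hs]; conv_lhs => rw [← hs (h • x)]
        rfl⟩
      ⟨(s (h • x))⁻¹ * (h * s x), by
        rw [← QuotientGroup.eq, hs]; conv_lhs => rw [← hs x]
        rfl⟩

/-- The factor in `H` attached to a section. -/
def secFactor (s : G ⧸ H → G) (hs : ∀ x, (s x : G ⧸ H) = x) (g : G) (x : G ⧸ H) : H :=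
  ⟨(s (g • x))⁻¹ * (g * s x), by
    rw [← QuotientGroup.eq, hs]; conv_lhs => rw [← hs x]
    rfl⟩

/-- The change from the standard section. -/
def secChange (s : G ⧸ H → G) (hs : ∀ x, (s x : G ⧸ H) = x) (x : G ⧸ H) : H :=
  ⟨x.out⁻¹ * s x, by rw [← QuotientGroup.eq, hs]; exact QuotientGroup.out_eq' x⟩

/-- The homotopy between two sections. -/
def secHomotopy (s : G ⧸ H → G) (hs : ∀ x, (s x : G ⧸ H) = x) (f : H → H → A) : G → A :=
  fun g => ∑ x : G ⧸ H, (g • x).out • (f (cosetFactor H g x) (secChange s hs x) -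
    f (secChange s hs (g • x)) (secFactor s hs g x))

lemma corSec_eq (s : G ⧸ H → G) (hs : ∀ x, (s x : G ⧸ H) = x) (f : H → H → A)
    (hf : ∀ a b c : H, (a : G) • f b c - f (a * b) c + f a (b * c) - f a b = 0) :
    corSec s hs f = cor₂fun H f - d₁ G A (secHomotopy s hs f) := by
  funext g h
  have h1 : ∀ x : G ⧸ H, (s (g • h • x)) •
      f (secFactor s hs g (h • x)) (secFactor s hs h x) =
        (g • h • x).out • f (cosetFactor H g (h • x)) (cosetFactor H h x)
        - g • (h • x).out • (f (cosetFactor H h x) (secChange s hs x) -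
            f (secChange s hs (h • x)) (secFactor s hs h x))
        + ((g * h) • x).out • (f (cosetFactor H (g * h) x) (secChange s hs x) -
            f (secChange s hs ((g * h) • x)) (secFactor s hs (g * h) x))
        - (g • h • x).out • (f (cosetFactor H g (h • x)) (secChange s hs (h • x)) -
            f (secChange s hs (g • h • x)) (secFactor s hs g (h • x))) := fun x => by
    have m1 : secFactor s hs (g * h) x = secFactor s hs g (h • x) * secFactor s hs h x := by
      apply Subtype.ext
      simp only [secFactor, Subgroup.coe_mul, mul_smul]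
      group
    have m2 : cosetFactor H g (h • x) * secChange s hs (h • x) =
        secChange s hs (g • h • x) * secFactor s hs g (h • x) := by
      apply Subtype.ext
      simp only [secFactor, secChange, cosetFactor, Subgroup.coe_mul]
      group
    have m3 : cosetFactor H h x * secChange s hs x =
        secChange s hs (h • x) * secFactor s hs h x := by
      apply Subtype.ext
      simp only [secFactor, secChange, cosetFactor, Subgroup.coe_mul]
      group
    have e1 := hf (secChange s hs (g • h • x)) (secFactor s hs g (h • x)) (secFactor s hs h x)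
    have e2 := hf (cosetFactor H g (h • x)) (secChange s hs (h • x)) (secFactor s hs h x)
    have e3 := hf (cosetFactor H g (h • x)) (cosetFactor H h x) (secChange s hs x)
    rw [← m1, ← m2] at e1
    rw [← m3] at e2
    rw [← cosetFactor_mul] at e3
    have p1 : s (g • h • x) = (g • h • x).out * (secChange s hs (g • h • x) : G) :=
      (mul_inv_cancel_left _ _).symm
    rw [p1, mul_smul g h x, mul_smul, smul_smul g (h • x).out,
      ← out_mul_cosetFactor H g (h • x), mul_smul]
    simp only [← smul_sub, ← smul_add]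
    refine congrArg _ (sub_eq_zero.mp ?_)
    rw [smul_sub]
    calc _ = ((secChange s hs (g • h • x) : G) • f (secFactor s hs g (h • x)) (secFactor s hs h x) -
          f (cosetFactor H g (h • x) * secChange s hs (h • x)) (secFactor s hs h x) +
          f (secChange s hs (g • h • x)) (secFactor s hs (g * h) x) -
          f (secChange s hs (g • h • x)) (secFactor s hs g (h • x))) -
        ((cosetFactor H g (h • x) : G) • f (secChange s hs (h • x)) (secFactor s hs h x) -
          f (cosetFactor H g (h • x) * secChange s hs (h • x)) (secFactor s hs h x) +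
          f (cosetFactor H g (h • x)) (cosetFactor H h x * secChange s hs x) -
          f (cosetFactor H g (h • x)) (secChange s hs (h • x))) +
        ((cosetFactor H g (h • x) : G) • f (cosetFactor H h x) (secChange s hs x) -
          f (cosetFactor H (g * h) x) (secChange s hs x) +
          f (cosetFactor H g (h • x)) (cosetFactor H h x * secChange s hs x) -
          f (cosetFactor H g (h • x)) (cosetFactor H h x)) := by abel
      _ = 0 := by rw [e1, e2, e3]; abel
  show ∑ x : G ⧸ H, (s (g • h • x)) • f (secFactor s hs g (h • x)) (secFactor s hs h x) = _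
  simp only [h1, cor₂fun, AddMonoidHom.coe_mk, ZeroHom.coe_mk, Pi.sub_apply, d₁_apply,
    secHomotopy, Finset.smul_sum, Finset.sum_sub_distrib, Finset.sum_add_distrib]
  rw [show ∑ x : G ⧸ H, (g • h • x).out • (f (cosetFactor H g (h • x)) (secChange s hs (h • x)) -
        f (secChange s hs (g • h • x)) (secFactor s hs g (h • x))) =
      ∑ x : G ⧸ H, (g • x).out • (f (cosetFactor H g x) (secChange s hs x) -
        f (secChange s hs (g • x)) (secFactor s hs g x)) from
    Fintype.sum_equiv (MulAction.toPerm h) _ _ fun x => rfl]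
  abel

lemma isConst₁_secHomotopy (hH : 𝓛.ok H) (_hA : IsSmooth 𝓛 A) (s : G ⧸ H → G)
    (hs : ∀ x, (s x : G ⧸ H) = x) {f : H → H → A} (hf : IsConst₂ (𝓛.restrict H) f) :
    IsConst₁ 𝓛 (secHomotopy s hs f) := by
  obtain ⟨V, hV, hfV⟩ := hf
  obtain ⟨N, hN, hNn, hNH, hNV⟩ := exists_normal_level hH hV
  refine ⟨N, hN, fun g t ht => Finset.sum_congr rfl fun x _ => ?_⟩
  obtain ⟨hx, u, hu, he⟩ := cosetFactor_mul_right H hNH g ht x
  have h2 : secFactor s hs (g * t) x =
      secFactor s hs g x * ⟨(s x)⁻¹ * t * s x, hNH (by simpa using hNn.conj_mem _ ht (s x)⁻¹)⟩ := by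
    apply Subtype.ext
    simp only [secFactor, Subgroup.coe_mul, mul_smul, hx]
    group
  have e1 := hfV (cosetFactor H g x) (secChange s hs x) u (hNV u hu) 1 (one_mem V)
  have e2 := hfV (secChange s hs (g • x)) (secFactor s hs g x) 1 (one_mem V)
    ⟨(s x)⁻¹ * t * s x, hNH (by simpa using hNn.conj_mem _ ht (s x)⁻¹)⟩
    (hNV _ (by simpa using hNn.conj_mem _ ht (s x)⁻¹))
  rw [mul_one] at e1 e2
  rw [mul_smul g t x, hx, he, h2, e1, e2]

variable {ι : Type} (r : ι → G) [∀ i, Fintype (D ⧸ twisted φ (r i) H)]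

/-- The coset map of a family of double coset representatives. -/
def repsMap (φ : D →* G) (H : Subgroup G) (r : ι → G)
    (x : Σ i, D ⧸ twisted φ (r i) H) : G ⧸ H := ((φ x.2.out * r x.1 : G) : G ⧸ H)

/-- Double coset representatives exist. -/
lemma exists_reps (φ : D →* G) (H : Subgroup G) [Finite (G ⧸ H)] :
    ∃ (n : ℕ) (r : Fin n → G), Function.Bijective (repsMap φ H r) := by
  classical
  let : MulAction D (G ⧸ H) := MulAction.compHom _ φ
  obtain ⟨n, ⟨e⟩⟩ := Finite.exists_equiv_fin (MulAction.orbitRel.Quotient D (G ⧸ H))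
  let r : Fin n → G := fun i => (e.symm i).out.out
  have horb : ∀ (i : Fin n) (d : D),
      MulAction.orbitRel.Quotient.orbit (e.symm i) = MulAction.orbit D ((r i : G) : G ⧸ H) :=
    fun i _ => by
      rw [show ((r i : G) : G ⧸ H) = (e.symm i).out from QuotientGroup.out_eq' _,
        ← MulAction.orbitRel.Quotient.orbit_eq_orbit_out _ Quotient.out_eq']
  have hcl : ∀ (i : Fin n) (d : D),
      Quotient.mk'' ((φ d * r i : G) : G ⧸ H) = e.symm i := fun i d => by
    rw [← MulAction.orbitRel.Quotient.mem_orbit, horb i d]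
    exact ⟨d, rfl⟩
  refine ⟨n, r, ⟨?_, fun y => ?_⟩⟩
  · rintro ⟨i, c⟩ ⟨j, c'⟩ hij
    obtain rfl : i = j := e.symm.injective (by
      rw [← hcl i c.out, ← hcl j c'.out]
      exact congrArg _ hij)
    refine congrArg (Sigma.mk i) ?_
    rw [← QuotientGroup.out_eq' c, ← QuotientGroup.out_eq' c', QuotientGroup.eq, mem_twisted]
    have h1 := QuotientGroup.eq.mp hij
    simpa [mul_assoc] using h1
  · have hy : y ∈ MulAction.orbit D ((r (e (Quotient.mk'' y)) : G) : G ⧸ H) := by
      rw [← horb _ 1, MulAction.orbitRel.Quotient.mem_orbit, Equiv.symm_apply_apply]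
    obtain ⟨d, hd⟩ := hy
    refine ⟨⟨e (Quotient.mk'' y), (d : D ⧸ _)⟩, Eq.trans ?_ hd⟩
    obtain ⟨u, hu⟩ := QuotientGroup.mk_out_eq_mul (twisted φ (r (e (Quotient.mk'' y))) H) d
    show ((φ (d : D ⧸ twisted φ (r (e (Quotient.mk'' y))) H).out * _ : G) : G ⧸ H) =
      ((φ d * _ : G) : G ⧸ H)
    rw [hu, map_mul, QuotientGroup.eq]
    have h2 := mem_twisted.mp (inv_mem u.2)
    simpa [mul_assoc] using h2

variable [Fintype ι]

include hψ in
/-- The double coset formula. -/
theorem map_cor₂ (hH : 𝓛.ok H) (hA : IsSmooth 𝓛 A) (hr : Function.Bijective (repsMap φ H r))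
    (x : H2 (𝓛.restrict H) A) :
    H2.map hφ hψ (cor₂ H hH x) =
      ∑ i, cor₂ (twisted φ (r i) H) (ok_twisted hφ hH (r i)) (locTwist₂ hφ hψ (r i) H x) := by
  classical
  obtain ⟨f, rfl⟩ := H2.mk_surjective x
  let e : (Σ i, D ⧸ twisted φ (r i) H) ≃ G ⧸ H := Equiv.ofBijective _ hr
  let s : G ⧸ H → G := fun y => φ (e.symm y).2.out * r (e.symm y).1
  have hs : ∀ y, (s y : G ⧸ H) = y := fun y => e.apply_symm_apply y
  have hsmul : ∀ (d : D) (i : ι) (c : D ⧸ twisted φ (r i) H), φ d • e ⟨i, c⟩ = e ⟨i, d • c⟩ := by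
    intro d i c
    show ((φ d * (φ c.out * r i) : G) : G ⧸ H) = ((φ (d • c).out * r i : G) : G ⧸ H)
    rw [eq_comm, QuotientGroup.eq]
    have h2 := mem_twisted.mp (cosetFactor (twisted φ (r i) H) d c).2
    simp only [cosetFactor, map_mul, map_inv] at h2
    simpa [mul_assoc] using h2
  have hs' : ∀ (i : ι) (c : D ⧸ twisted φ (r i) H), s (e ⟨i, c⟩) = φ c.out * r i := fun i c => by
    show φ (e.symm (e ⟨i, c⟩)).2.out * r (e.symm (e ⟨i, c⟩)).1 = _
    rw [Equiv.symm_apply_apply]
  have hsec : ∀ (d : D) (i : ι) (c : D ⧸ twisted φ (r i) H),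
      secFactor s hs (φ d) (e ⟨i, c⟩) =
        twistHom φ (r i) H (cosetFactor (twisted φ (r i) H) d c) := by
    intro d i c
    apply Subtype.ext
    show (s (φ d • e ⟨i, c⟩))⁻¹ * (φ d * s (e ⟨i, c⟩)) = _
    rw [hsmul, hs', hs']
    simp [cosetFactor, mul_assoc]
  have key : ∀ d d' : D, ψ (corSec s hs (f : H → H → A) (φ d) (φ d')) =
      ∑ i, cor₂fun (twisted φ (r i) H) (fun u v => twistMap ψ (r i)
        ((f : H → H → A) (twistHom φ (r i) H u) (twistHom φ (r i) H v))) d d' := by
    intro d d'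
    show ψ (∑ y : G ⧸ H, (s (φ d • φ d' • y)) •
      (f : H → H → A) (secFactor s hs (φ d) (φ d' • y)) (secFactor s hs (φ d') y)) = _
    simp only [map_sum, cor₂fun, AddMonoidHom.coe_mk, ZeroHom.coe_mk]
    rw [← Fintype.sum_equiv e _ _ fun x => rfl, Fintype.sum_sigma]
    refine Finset.sum_congr rfl fun i _ => Finset.sum_congr rfl fun c _ => ?_
    rw [hsmul d' i c, hsmul d i (d' • c), hs', hsec, hsec, mul_smul, hψ]
    rfl
  rw [cor₂_mk, H2.map_mk]
  simp only [locTwist₂, H2.map_mk, cor₂_mk]
  rw [← map_sum, H2.mk_eq_mk]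
  refine ⟨fun d => ψ (secHomotopy s hs (f : H → H → A) (φ d)),
    ((isConst₁_secHomotopy hH hA s hs f.2.1).precomp hφ).comp ψ,
    funext fun d => funext fun d' => ?_⟩
  rw [Pi.add_apply, Pi.add_apply, hψ.d₁_map, AddSubgroup.val_finsetSum, Finset.sum_apply,
    Finset.sum_apply]
  show ψ (cor₂fun H (f : H → H → A) (φ d) (φ d')) = (∑ i, cor₂fun (twisted φ (r i) H)
    (fun u v => twistMap ψ (r i) ((f : H → H → A) (twistHom φ (r i) H u) (twistHom φ (r i) H v)))
      d d') + _
  rw [← key, ← map_add, corSec_eq s hs (f : H → H → A) f.2.2]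
  simp

end Fermat.Agent.Duality.Coh

end
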