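import Fermat.Agent.Duality.Coh.Devissage
import Mathlib.GroupTheory.Sylow

/-!
# Reduction of the duality maps to open subgroups fixing a module of order `p`
-/

set_option autoImplicit false

noncomputable section

namespace Fermat.Agent.Duality.Coh

variable {G : Type} [Group G] {𝓛 : Levels G} {C : Type} [AddCommGroup C] [DistribMulAction G C]

/-- The finite coset space of a level. -/
@[implicit_reducible]
def Levels.fintypeQuot {H : Subgroup G} (hH : 𝓛.ok H) : Fintype (G ⧸ H) :=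
  haveI := 𝓛.finiteIndex hH
  Fintype.ofFinite _

variable {T : Type} [AddCommGroup T]

/-- A functional on `H²` composed with corestriction. -/
def iotaSub (ι : H2 𝓛 C →+ T) (H : Subgroup G) (hH : 𝓛.ok H) : H2 (𝓛.restrict H) C →+ T :=
  letI := 𝓛.fintypeQuot hH
  ι.comp (cor₂ H hH)

variable {p : ℕ} [Fact p.Prime] (ι : H2 𝓛 C →+ T)
  (Λ : Type) [AddCommGroup Λ] [DistribMulAction G Λ]

/-- The statements for the module of order `p` used in the dévissage. -/
structure IsDualityBase : Prop where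
  card_eq : Nat.card Λ = p
  smooth : IsSmooth 𝓛 Λ
  injective : ∀ (H : Subgroup G) (hH : 𝓛.ok H), (∀ (h : H) (l : Λ), h • l = l) →
    Function.Injective (theta₂ (A := Λ) (iotaSub ι H hH))
  surjective : ∀ (H : Subgroup G) (hH : 𝓛.ok H) (hs : IsSmooth (𝓛.restrict H) Λ),
    (∀ (h : H) (l : Λ), h • l = l) →
    Function.Surjective (theta₁ (A := Λ) (iotaSub ι H hH) hs)

variable {ι Λ} {M : Type} [AddCommGroup M] [DistribMulAction G M] [Finite M]

omit [Finite M] in
lemma IsSmooth.restrictSubgroup (h : IsSmooth 𝓛 M) (H : Subgroup G) :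
    IsSmooth (𝓛.restrict H) M := fun a => by
  obtain ⟨U, hU, h'⟩ := h a
  exact ⟨U.subgroupOf H, ⟨U, hU, le_rfl⟩, fun s hs => h' (s : G) hs⟩

/-- A normal level fixing two finite smooth modules. -/
lemma exists_normal_fixing {N : Type} [AddCommGroup N] [DistribMulAction G N] [Finite N]
    (hM : IsSmooth 𝓛 M) (hN : IsSmooth 𝓛 N) :
    ∃ K, 𝓛.ok K ∧ K.Normal ∧ (∀ s ∈ K, ∀ m : M, s • m = m) ∧ ∀ s ∈ K, ∀ m : N, s • m = m := by
  obtain ⟨U, hU, hUM⟩ := hM.exists_fixing id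
  obtain ⟨V, hV, hVN⟩ := hN.exists_fixing id
  obtain ⟨K, hK, hKn, hKle⟩ := 𝓛.exists_normal (𝓛.inf_ok hU hV)
  exact ⟨K, hK, hKn, fun s hs m => hUM m s (hKle hs).1, fun s hs m => hVN m s (hKle hs).2⟩

/-- Injectivity of the duality map in degree two. -/
theorem theta₂_injective (hC : IsSmooth 𝓛 C) (hpC : ∀ c : C, p • c = 0)
    (hpT : ∀ t : T, p • t = 0) (base : IsDualityBase (p := p) ι Λ) (hM : IsSmooth 𝓛 M)
    (hpM : ∀ m : M, p • m = 0) : Function.Injective (theta₂ (A := M) ι) := by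
  have : Finite Λ := Nat.finite_of_card_ne_zero (base.card_eq ▸ (Fact.out : p.Prime).ne_zero)
  obtain ⟨K, hK, hKn, hKM, hKΛ⟩ := exists_normal_fixing hM base.smooth
  have := hKn
  have := 𝓛.finiteIndex hK
  have : Finite (G ⧸ K) := inferInstance
  let P : Sylow p (G ⧸ K) := default
  let H : Subgroup G := (P : Subgroup (G ⧸ K)).comap (QuotientGroup.mk' K)
  have hKH : K ≤ H := fun s hs => by
    show (s : G ⧸ K) ∈ (P : Subgroup (G ⧸ K))
    rw [(QuotientGroup.eq_one_iff s).mpr hs]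
    exact one_mem _
  have hH : 𝓛.ok H := 𝓛.mono hK hKH
  let := 𝓛.fintypeQuot hH
  have hidx : ¬ p ∣ Fintype.card (G ⧸ H) := by
    rw [← Nat.card_eq_fintype_card, ← Subgroup.index_eq_card,
      Subgroup.index_comap_of_surjective _ (QuotientGroup.mk'_surjective K)]
    exact P.not_dvd_index
  have : (K.subgroupOf H).Normal := Subgroup.normal_subgroupOf
  have hN : IsPGroup p (H ⧸ K.subgroupOf H) := fun x => by
    obtain ⟨h, rfl⟩ := QuotientGroup.mk_surjective x
    obtain ⟨k, hk⟩ := P.isPGroup' ⟨((h : G) : G ⧸ K), h.2⟩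
    refine ⟨k, ?_⟩
    rw [← QuotientGroup.mk_pow, QuotientGroup.eq_one_iff, Subgroup.mem_subgroupOf,
      ← QuotientGroup.eq_one_iff, Subgroup.coe_pow, QuotientGroup.mk_pow]
    exact congrArg Subtype.val hk
  have hfixΛ : ∀ (h : H) (l : Λ), h • l = l := by
    intro h l
    rcases subsingleton_or_nontrivial Λ with hs | hs
    · exact Subsingleton.elim _ _
    have hpΛ : ∀ l : Λ, p • l = 0 := fun l => by rw [← base.card_eq]; exact card_nsmul_eq_zero'
    obtain ⟨l₀, hl₀, hfix⟩ := exists_fixed_ne_zero (K.subgroupOf H) hN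
      (fun s hs m => hKΛ (s : G) hs m) hpΛ
    have : Fintype Λ := Fintype.ofFinite Λ
    obtain ⟨k, rfl⟩ := mem_zmultiples_of_prime_card base.card_eq hl₀ (g' := l)
    show h • (k • l₀) = k • l₀
    rw [show h • (k • l₀) = k • (h • l₀) from map_zsmul (DistribSMul.toAddMonoidHom Λ (h : G)) k l₀,
      hfix h]
  obtain ⟨hinj, -⟩ := theta_devissage (iotaSub ι H hH) (hC.restrictSubgroup H) hpC hpT base.card_eq
    (base.smooth.restrictSubgroup H) hfixΛ (base.injective H hH hfixΛ)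
    (base.surjective H hH _ hfixΛ) (K.subgroupOf H) hN (Nat.card M) (M := M) rfl
    (hM.restrictSubgroup H) hpM fun s hs m => hKM (s : G) hs m
  refine (injective_iff_map_eq_zero _).mpr fun x hx => ?_
  have hres : res₂ H x = 0 := (injective_iff_map_eq_zero _).mp hinj _ (AddMonoidHom.ext fun c => by
    show ι (cor₂ H hH (applyInv (res₂ H x) c)) = 0
    rw [cor₂_applyInv_res₂ hH x c, ← theta₂_apply, hx]
    rfl)
  have h := cor₂_res₂ H hH x
  rw [hres, map_zero] at h
  have hco : (Fintype.card (G ⧸ H)).Coprime p :=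
    ((Fact.out : p.Prime).coprime_iff_not_dvd.mpr hidx).symm
  have hord := Nat.dvd_gcd (addOrderOf_dvd_of_nsmul_eq_zero h.symm)
    (addOrderOf_dvd_of_nsmul_eq_zero (H2.torsion hpM x))
  rw [hco.gcd_eq_one, Nat.dvd_one, AddMonoid.addOrderOf_eq_one_iff] at hord
  exact hord

/-- Separation of equivariant homomorphisms by degree two classes. -/
theorem theta₂_separates (hΛ : Nat.card Λ = p) (hsΛ : IsSmooth 𝓛 Λ)
    (sep : ∀ H : Subgroup G, 𝓛.ok H → (∀ (h : H) (l : Λ), h • l = l) →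
      ∀ c : HomMod Λ C, c ≠ 0 → (∀ h ∈ H, h • c = c) →
      ∃ (H' : Subgroup G) (hH' : 𝓛.ok H') (hc : c ∈ inv H' (HomMod Λ C)),
        H' ≤ H ∧ ∃ x, theta₂ (iotaSub ι H' hH') x ⟨c, hc⟩ ≠ 0)
    (hM : IsSmooth 𝓛 M) (hpM : ∀ m : M, p • m = 0) {c : inv G (HomMod M C)} (hc : c ≠ 0) :
    ∃ x, theta₂ ι x c ≠ 0 := by
  have : Finite Λ := Nat.finite_of_card_ne_zero (hΛ ▸ (Fact.out : p.Prime).ne_zero)
  obtain ⟨m, hm⟩ : ∃ m, (c : HomMod M C) m ≠ 0 := by
    by_contra h
    push Not at h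
    exact hc (Subtype.ext (HomMod.ext h))
  obtain ⟨K, hK, hKn, hKM, hKΛ⟩ := exists_normal_fixing hM hsΛ
  let : Module (ZMod p) M := AddCommGroup.zmodModule hpM
  let e : ZMod p ≃+ Λ := (ZMod.ringEquivCongr hΛ.symm).toAddEquiv.trans
    (zmodAddCyclicAddEquiv (isAddCyclic_of_prime_card hΛ))
  let i : Λ →+ M :=
    ((LinearMap.toSpanSingleton (ZMod p) M m).toAddMonoidHom).comp e.symm.toAddMonoidHom
  let c' : HomMod Λ C := HomMod.pre i (c : HomMod M C)
  have hc' : c' ≠ 0 := fun h => hm (by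
    have h1 : (c : HomMod M C) (e.symm (e 1) • m) = 0 := DFunLike.congr_fun h (e 1)
    rwa [e.symm_apply_apply, one_smul] at h1)
  have hKi : ∀ s ∈ K, s • c' = c' := fun s hs => HomMod.ext fun l => by
    show s • (c : HomMod M C) (i (s⁻¹ • l)) = (c : HomMod M C) (i l)
    rw [hKΛ _ (inv_mem hs) l, ← HomMod.smul_apply_smul, hKM s hs, c.2 s]
  obtain ⟨H', hH', hcH', hle, x, hx⟩ := sep K hK (fun h l => hKΛ _ h.2 l) c' hc' hKi
  have hi : IsEquivariant (MonoidHom.id H') i := fun h l => by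
    show i ((h : G) • l) = (h : G) • i l
    rw [hKΛ _ (hle h.2), hKM _ (hle h.2)]
  let := 𝓛.fintypeQuot hH'
  refine ⟨cor₂ H' hH' (H2.map (Levels.compat_id _) hi x), fun h => hx ?_⟩
  rw [← h]
  show ι (cor₂ H' hH' (applyInv x ⟨c', hcH'⟩)) = ι (applyInv _ c)
  rw [applyInv_apply _ c, ← cor₂_map H' hH' (HomMod.isEquivariant_of_mem_inv c.2)]
  obtain ⟨z, rfl⟩ := H2.mk_surjective x
  rfl

end Fermat.Agent.Duality.Coh

end
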