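import Fermat.Agent.Duality.Coh.PlaceModule
import Fermat.Agent.Duality.Coh.Reduction

/-!
# The pairing of the locally trivial classes

The formal part of the duality between `Ш¹(Hom(M, A))` and `Ш²(M)` for finitely many places.
-/

set_option autoImplicit false

noncomputable section

namespace Fermat.Agent.Duality.Coh

variable {p : ℕ} [Fact p.Prime]

private lemma exists_section_aux {X Y : Type} [AddCommGroup X] [AddCommGroup Y] [Module (ZMod p) X]
    [Module (ZMod p) Y] {f : X →+ Y} (hf : Function.Surjective f) :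
    ∃ s : Y →+ X, ∀ y, f (s y) = y := by
  obtain ⟨s, hs⟩ := (f.toZModLinearMap p).exists_rightInverse_of_surjective
    (LinearMap.range_eq_top.mpr hf)
  exact ⟨s.toAddMonoidHom, fun y => LinearMap.congr_fun hs y⟩

/-- A surjection between groups killed by `p` has an additive section. -/
lemma exists_section_of_surjective {X Y : Type} [AddCommGroup X] [AddCommGroup Y]
    (hX : ∀ x : X, p • x = 0) (hY : ∀ y : Y, p • y = 0) {f : X →+ Y}
    (hf : Function.Surjective f) : ∃ s : Y →+ X, ∀ y, f (s y) = y := by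
  let : Module (ZMod p) X := AddCommGroup.zmodModule hX
  let : Module (ZMod p) Y := AddCommGroup.zmodModule hY
  exact exists_section_aux (p := p) hf

private lemma surjective_aux {V X : Type} [AddCommGroup V] [Finite V] [AddCommGroup X]
    [Module (ZMod p) V] (θ : X →+ V →+ ZMod p)
    (h : ∀ v : V, v ≠ 0 → ∃ x, θ x v ≠ 0) : Function.Surjective θ := by
  classical
  have : Module.Finite (ZMod p) V := Module.Finite.of_finite
  let R : Submodule (ZMod p) (Module.Dual (ZMod p) V) :=
    Submodule.span (ZMod p) (Set.range fun x => (θ x).toZModLinearMap p)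
  have hR : R.dualCoannihilator = ⊥ := by
    refine (Submodule.eq_bot_iff _).mpr fun v hv => ?_
    by_contra hv0
    obtain ⟨x, hx⟩ := h v hv0
    exact hx ((Submodule.mem_dualCoannihilator v).mp hv _ (Submodule.subset_span ⟨x, rfl⟩))
  have hRtop : R = ⊤ := by
    rw [← Subspace.dualCoannihilator_dualAnnihilator_eq (W := R), hR, Submodule.dualAnnihilator_bot]
  intro φ
  have hmem : (φ.toZModLinearMap p : Module.Dual (ZMod p) V) ∈ R := hRtop ▸ Submodule.mem_top
  suffices hmain : ∀ l ∈ R, ∃ x, ∀ v, θ x v = l v by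
    obtain ⟨x, hx⟩ := hmain _ hmem
    exact ⟨x, AddMonoidHom.ext hx⟩
  intro l hl
  induction hl using Submodule.span_induction with
  | mem l hl => obtain ⟨x, rfl⟩ := hl; exact ⟨x, fun v => rfl⟩
  | zero => exact ⟨0, fun v => by rw [map_zero]; rfl⟩
  | add l l' _ _ hl hl' =>
    obtain ⟨x, hx⟩ := hl
    obtain ⟨x', hx'⟩ := hl'
    exact ⟨x + x', fun v => by
      rw [map_add, AddMonoidHom.add_apply, hx, hx', LinearMap.add_apply]⟩
  | smul a l _ hl =>
    obtain ⟨x, hx⟩ := hl
    refine ⟨a.val • x, fun v => ?_⟩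
    rw [map_nsmul, AddMonoidHom.nsmul_apply, hx, LinearMap.smul_apply, smul_eq_mul,
      nsmul_eq_mul, ZMod.natCast_zmod_val]

/-- A separating family of functionals on a finite group killed by `p` is everything. -/
lemma surjective_of_separates {V X : Type} [AddCommGroup V] [Finite V] [AddCommGroup X]
    (hV : ∀ v : V, p • v = 0) (θ : X →+ V →+ ZMod p)
    (h : ∀ v : V, v ≠ 0 → ∃ x, θ x v ≠ 0) : Function.Surjective θ := by
  let : Module (ZMod p) V := AddCommGroup.zmodModule hV
  exact surjective_aux θ h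

variable {G : Type} [Group G] {𝓛 : Levels G} {M A A' : Type} [AddCommGroup M]
  [DistribMulAction G M] [AddCommGroup A] [DistribMulAction G A]

/-- Postcomposition. -/
def HomMod.post [AddCommGroup A'] (ψ : A →+ A') : HomMod M A →+ HomMod M A' where
  toFun f := HomMod.of (ψ.comp f.toHom)
  map_zero' := HomMod.ext fun _ => map_zero ψ
  map_add' _ _ := HomMod.ext fun _ => map_add ψ _ _

lemma HomMod.post_apply [AddCommGroup A'] (ψ : A →+ A') (f : HomMod M A) (m : M) :
    HomMod.post ψ f m = ψ (f m) := rfl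

lemma HomMod.isEquivariant_post [AddCommGroup A'] {D : Type} [Group D] [DistribMulAction D A']
    [DistribMulAction D M] {φ : D →* G} (hDM : ∀ (d : D) (m : M), φ d • m = d • m) {ψ : A →+ A'}
    (hψ : IsEquivariant φ ψ) : IsEquivariant φ (HomMod.post (M := M) ψ) := fun d f =>
  HomMod.ext fun m => by
    show ψ (φ d • f ((φ d)⁻¹ • m)) = d • ψ (f (d⁻¹ • m))
    rw [← map_inv, hDM, hψ]

variable {B C : Type} [AddCommGroup B] [DistribMulAction G B] [AddCommGroup C]
  [DistribMulAction G C]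

/-- The short exact sequence of homomorphisms into a short exact sequence. -/
def ShortSeq.postSeq [Finite M] (hM : IsSmooth 𝓛 M) (E : ShortSeq 𝓛 A B C)
    (hsec : ∃ s : C →+ B, ∀ c, E.π (s c) = c) :
    ShortSeq 𝓛 (HomMod M A) (HomMod M B) (HomMod M C) where
  i := HomMod.post E.i
  π := HomMod.post E.π
  i_equiv := HomMod.isEquivariant_post (fun _ _ => rfl) E.i_equiv
  π_equiv := HomMod.isEquivariant_post (fun _ _ => rfl) E.π_equiv
  i_inj f f' h := HomMod.ext fun m => E.i_inj (DFunLike.congr_fun h m)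
  π_surj f := by
    obtain ⟨s, hs⟩ := hsec
    exact ⟨HomMod.post s f, HomMod.ext fun m => hs (f m)⟩
  exact f hf := by
    refine ⟨HomMod.of (AddMonoidHom.mk' (fun m => E.pre (f m)) fun m m' => E.i_inj ?_), ?_⟩
    · have h0 : ∀ m, E.π (f m) = 0 := fun m => DFunLike.congr_fun hf m
      rw [map_add, map_add E.i, E.i_pre (h0 m), E.i_pre (h0 m'), ← map_add,
        E.i_pre (h0 (m + m'))]
    · exact HomMod.ext fun m => E.i_pre (DFunLike.congr_fun hf m)
  π_i f := HomMod.ext fun m => E.π_i (f m)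
  smooth := HomMod.isSmooth hM E.smooth

variable {I : Type} [Fintype I] [Nonempty I] {D : I → Type} [∀ i, Group (D i)]
  {φ : ∀ i, D i →* G} [∀ i, DistribMulAction (D i) M]
  (hDM : ∀ i (d : D i) (m : M), φ i d • m = d • m)
  {Bi : I → Type} [∀ i, AddCommGroup (Bi i)] [∀ i, DistribMulAction (D i) (Bi i)]
  {𝓜 : ∀ i, Levels (D i)} (hc : ∀ i, (𝓜 i).Compat 𝓛 (φ i))
  {ψ : ∀ i, A →+ Bi i} (hψ : ∀ i, IsEquivariant (φ i) (ψ i))

/-- The locally trivial classes in degree two. -/
def shaTwo : AddSubgroup (H2 𝓛 M) :=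
  ⨅ i, (H2.map (hc i) (φ := AddMonoidHom.id M) (fun d m => hDM i d m)).ker

/-- The locally trivial classes in degree one of the dual module. -/
def shaOne : AddSubgroup (H1 𝓛 (HomMod M A)) :=
  ⨅ i, (H1.map (hc i) (HomMod.isEquivariant_post (hDM i) (hψ i))).ker

omit [Fintype I] [Nonempty I] in
lemma mem_shaTwo {x : H2 𝓛 M} : x ∈ shaTwo hDM hc ↔
    ∀ i, H2.map (hc i) (φ := AddMonoidHom.id M) (fun d m => hDM i d m) x = 0 := by
  simp only [shaTwo, AddSubgroup.mem_iInf, AddMonoidHom.mem_ker]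

omit [Fintype I] [Nonempty I] in
lemma mem_shaOne {y : H1 𝓛 (HomMod M A)} : y ∈ shaOne hDM hc hψ ↔
    ∀ i, H1.map (hc i) (HomMod.isEquivariant_post (hDM i) (hψ i)) y = 0 := by
  simp only [shaOne, AddSubgroup.mem_iInf, AddMonoidHom.mem_ker]

variable (inv' : ∀ i, H2 (𝓜 i) (Bi i) →+ ZMod p) (hA : IsSmooth 𝓛 A)
  (ι : H2 𝓛 (PlaceQuot 𝓛 φ A) →+ ZMod p)

include hDM in
/-- The value of the duality map on homomorphisms coming from `PlaceMod`. -/
lemma theta₂_proj (hι : ∀ x, ι ((placeSeq 𝓛 φ hA).mapπ₂ x) = placeSum hc hψ inv' x)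
    (x : H2 𝓛 M) (F : inv G (HomMod M (PlaceMod 𝓛 φ A))) :
    theta₂ ι x ⟨HomMod.post (placeProj 𝓛 φ A) F,
      (HomMod.isEquivariant_post (fun _ _ => rfl) (isEquivariant_placeProj 𝓛 φ A)).map_inv F.2⟩ =
    ∑ i, theta₂ (inv' i) (H2.map (hc i) (φ := AddMonoidHom.id M) (fun d m => hDM i d m) x)
      ⟨homEv ψ i (F : HomMod M (PlaceMod 𝓛 φ A)), (isEquivariant_homEv hDM hψ i).map_inv F.2⟩ := by
  obtain ⟨z, rfl⟩ := H2.mk_surjective x
  rw [theta₂_apply]
  refine Eq.trans (congrArg ι ?_)
    ((hι (applyInv (H2.mk z) F)).trans ((placeSum_apply hc hψ inv' _).trans ?_))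
  · rfl
  · exact Finset.sum_congr rfl fun i _ => rfl

include hDM in
/-- The duality between the locally trivial classes. -/
theorem exists_sha_pairing [Finite M] [Finite A] [Finite (H1 𝓛 (HomMod M A))]
    (hM : IsSmooth 𝓛 M) (hpA : ∀ a : A, p • a = 0)
    (hι : ∀ x, ι ((placeSeq 𝓛 φ hA).mapπ₂ x) = placeSum hc hψ inv' x)
    (hbij : ∀ i, Function.Bijective (ψ i))
    (hloc : ∀ i, Function.Injective (theta₂ (A := M) (inv' i)))
    (hinj : Function.Injective (theta₂ (A := M) ι))
    (hsep : ∀ c : inv G (HomMod M (PlaceQuot 𝓛 φ A)), c ≠ 0 → ∃ x, theta₂ ι x c ≠ 0) :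
    ∃ P : shaOne hDM hc hψ →+ shaTwo (M := M) hDM hc →+ ZMod p,
      (∀ y, (∀ x, P y x = 0) → y = 0) ∧ (∀ x, (∀ y, P y x = 0) → x = 0) := by
  classical
  set E := placeSeq 𝓛 φ hA
  let E' := E.postSeq (M := M) hM (exists_section_of_surjective (PlaceMod.torsion hpA)
    (PlaceQuot.torsion 𝓛 φ A hpA) E.π_surj)
  have hsha : ∀ y, y ∈ shaOne hDM hc hψ ↔ E'.mapI₁ y = 0 := fun y => by
    have key : ∀ i, H1.map (hc i) (isEquivariant_homEv (M := M) hDM hψ i) (E'.mapI₁ y) =
        H1.map (hc i) (HomMod.isEquivariant_post (hDM i) (hψ i)) y := fun i => by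
      obtain ⟨z, rfl⟩ := H1.mk_surjective y
      exact congrArg H1.mk (Subtype.ext (funext fun d => HomMod.ext fun m =>
        congrArg (ψ i) (one_smul G _)))
    rw [mem_shaOne]
    refine ⟨fun h => eq_zero_of_homEv hDM hM hc hψ hbij _ fun i => (key i).trans (h i),
      fun h i => ?_⟩
    rw [← key i, h, map_zero]
  have hzero : ∀ (x : H2 𝓛 M), x ∈ shaTwo hDM hc →
      ∀ c, E'.δ₀ c = 0 → theta₂ ι x c = 0 := fun x hx c hc0 => by
    obtain ⟨F, hF, hFc⟩ := E'.exact_C₀ c hc0
    have h := theta₂_proj hDM hc hψ inv' hA ι hι x ⟨F, hF⟩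
    rw [Finset.sum_eq_zero fun i _ => by
      rw [(mem_shaTwo hDM hc).mp hx i, map_zero]; rfl] at h
    rw [← h]
    exact congrArg (theta₂ ι x) (Subtype.ext hFc.symm)
  have hsurj : ∀ y : shaOne hDM hc hψ, ∃ c, E'.δ₀ c = y := fun y =>
    E'.exact_A₁ _ ((hsha y).mp y.2)
  choose lift hlift using hsurj
  have hwd : ∀ (x : shaTwo (M := M) hDM hc) c c', E'.δ₀ c = E'.δ₀ c' →
      theta₂ ι (x : H2 𝓛 M) c = theta₂ ι (x : H2 𝓛 M) c' := fun x c c' h => by
    rw [← sub_eq_zero, ← map_sub]
    exact hzero x x.2 _ (by rw [map_sub, h, sub_self])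
  let P : shaOne hDM hc hψ →+ shaTwo (M := M) hDM hc →+ ZMod p :=
    AddMonoidHom.mk' (fun y => AddMonoidHom.mk' (fun x => theta₂ ι (x : H2 𝓛 M) (lift y))
      fun x x' => by rw [AddSubgroup.coe_add, map_add, AddMonoidHom.add_apply])
      fun y y' => AddMonoidHom.ext fun x => by
        show theta₂ ι (x : H2 𝓛 M) (lift (y + y')) = _ + _
        rw [hwd x (lift (y + y')) (lift y + lift y') (by
          rw [map_add, hlift, hlift, hlift, AddSubgroup.coe_add]), map_add]
        rfl
  refine ⟨P, fun y hy => ?_, fun x hx => Subtype.ext (hinj ?_)⟩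
  · by_contra hy0
    have hpH : ∀ e : H1 𝓛 (HomMod M A), p • e = 0 := H1.torsion (HomMod.torsion hpA)
    let : Module (ZMod p) (H1 𝓛 (HomMod M A)) := AddCommGroup.zmodModule hpH
    obtain ⟨χ, hχ⟩ := exists_hom_factor (p := p) hpH (ZModModule.char_nsmul_eq_zero p)
      ((LinearMap.toSpanSingleton (ZMod p) _ (y : H1 𝓛 (HomMod M A))).toAddMonoidHom)
      (AddMonoidHom.id (ZMod p)) fun k hk => by
        have hk' : k • (y : H1 𝓛 (HomMod M A)) = 0 := hk
        rcases smul_eq_zero.mp hk' with h | h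
        · exact h
        · exact absurd (Subtype.ext h) hy0
    have hfin : Finite (inv G (HomMod M (PlaceQuot 𝓛 φ A))) := by
      have hJ : Finite (inv G (HomMod M (PlaceMod 𝓛 φ A))) := by
        refine Finite.of_injective (fun F (i : I) (m : M) =>
          PlaceMod.val i 1 ((F : HomMod M (PlaceMod 𝓛 φ A)) m)) fun F F' h => ?_
        refine Subtype.ext (HomMod.ext fun m => PlaceMod.ext fun i g => ?_)
        rw [val_of_mem_inv F.2, val_of_mem_inv F'.2]
        exact congrFun (congrFun h i) (g • m)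
      let π' : inv G (HomMod M (PlaceMod 𝓛 φ A)) →+ inv G (HomMod M (PlaceQuot 𝓛 φ A)) :=
        AddMonoidHom.mk' (fun F => ⟨E'.π F, E'.π_equiv.map_inv F.2⟩)
          fun F F' => Subtype.ext (map_add E'.π _ _)
      have : Finite π'.range := Finite.of_surjective π'.rangeRestrict π'.rangeRestrict_surjective
      have : Finite E'.δ₀.ker := Finite.of_injective
        (fun c => (⟨c.1, by
          obtain ⟨F, hF, hFc⟩ := E'.exact_C₀ _ c.2
          exact ⟨⟨F, hF⟩, Subtype.ext hFc⟩⟩ : π'.range))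
        fun c c' h => Subtype.ext (congrArg Subtype.val h :)
      have : Finite E'.δ₀.range := inferInstance
      have : Finite (inv G (HomMod M (PlaceQuot 𝓛 φ A)) ⧸ E'.δ₀.ker) :=
        Finite.of_equiv _ (QuotientAddGroup.quotientKerEquivRange E'.δ₀).symm.toEquiv
      exact Finite.of_addSubgroup_quotient E'.δ₀.ker
    obtain ⟨x, hx⟩ := surjective_of_separates (fun c => Subtype.ext
      (HomMod.torsion (PlaceQuot.torsion 𝓛 φ A hpA) _)) (theta₂ ι) hsep (χ.comp E'.δ₀)
    have hxsha : x ∈ shaTwo hDM hc := by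
      refine (mem_shaTwo hDM hc).mpr fun i => (injective_iff_map_eq_zero _).mp (hloc i) _
        (AddMonoidHom.ext fun cl => ?_)
      let e := AddEquiv.ofBijective (ψ i) (hbij i)
      let cA : I → M →+ A := Function.update 0 i (e.symm.toAddMonoidHom.comp cl.1.toHom)
      have hcA : ∀ j (d : D j) (m : M), cA j (φ j d • m) = φ j d • cA j m := fun j d m => by
        rcases eq_or_ne j i with rfl | hj
        · simp only [cA, Function.update_self]
          refine (hbij j).1 ?_
          rw [hψ j, hDM]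
          show ψ j (e.symm (cl.1 (d • m))) = d • ψ j (e.symm (cl.1 m))
          rw [show ∀ b, ψ j (e.symm b) = b from e.apply_symm_apply,
            show ∀ b, ψ j (e.symm b) = b from e.apply_symm_apply]
          exact HomMod.isEquivariant_of_mem_inv cl.2 d m
        · simp only [cA, Function.update_of_ne hj, Pi.zero_apply, AddMonoidHom.zero_apply,
            smul_zero]
      set F := homOfLocal (𝓛 := 𝓛) (φ := φ) hM cA hcA
      have h1 := theta₂_proj hDM hc hψ inv' hA ι hι x F
      have h0 : E'.δ₀ ⟨HomMod.post (placeProj 𝓛 φ A) F, (HomMod.isEquivariant_post (fun _ _ => rfl)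
          (isEquivariant_placeProj 𝓛 φ A)).map_inv F.2⟩ = 0 := E'.δ₀_π F.2
      rw [hx, AddMonoidHom.comp_apply, h0, map_zero, Finset.sum_eq_single i] at h1
      · rw [AddMonoidHom.zero_apply, h1]
        congr 1
        refine Subtype.ext (HomMod.ext fun m => ?_)
        show (cl : HomMod M (Bi i)) m = ψ i (cA i ((1 : G) • m))
        simp only [cA, Function.update_self, one_smul]
        exact (e.apply_symm_apply _).symm
      · intro j _ hj
        rw [show (⟨homEv ψ j (F : HomMod M (PlaceMod 𝓛 φ A)),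
            (isEquivariant_homEv hDM hψ j).map_inv F.2⟩ : inv (D j) (HomMod M (Bi j))) = 0 from
          Subtype.ext (HomMod.ext fun m => ?_), map_zero]
        show ψ j (cA j ((1 : G) • m)) = 0
        simp only [cA, Function.update_of_ne hj, Pi.zero_apply, AddMonoidHom.zero_apply, map_zero]
      · exact fun h => absurd (Finset.mem_univ i) h
    have h2 : theta₂ ι x (lift y) = 0 := hy ⟨x, hxsha⟩
    rw [hx, AddMonoidHom.comp_apply, hlift] at h2
    have h3 := hχ 1
    rw [show (LinearMap.toSpanSingleton (ZMod p) _ (y : H1 𝓛 (HomMod M A))).toAddMonoidHom 1 =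
      (y : H1 𝓛 (HomMod M A)) from one_smul _ _, h2] at h3
    exact zero_ne_one h3
  · rw [AddSubgroup.coe_zero, map_zero]
    refine AddMonoidHom.ext fun c => ?_
    have hmem : E'.δ₀ c ∈ shaOne hDM hc hψ := (hsha _).mpr (E'.mapI₁_δ₀ c)
    rw [AddMonoidHom.zero_apply, hwd x c (lift ⟨_, hmem⟩) (by rw [hlift])]
    exact hx ⟨_, hmem⟩

end Fermat.Agent.Duality.Coh

end
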