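import Mathlib

/-!
# Level-constant cochains in degrees at most two

For a group `G` with a filter basis of finite index subgroups (`Levels`), this file defines the
cohomology groups `H1` and `H2` of a `G`-module built from cochains that are constant on cosets
of some level, and their functoriality.
-/

set_option autoImplicit false

namespace Fermat.Agent.Duality.Coh

/-- A family of finite index subgroups of `G` defining a topology. -/
structure Levels (G : Type) [Group G] where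
  ok : Subgroup G → Prop
  top_ok : ok ⊤
  inf_ok : ∀ {U V : Subgroup G}, ok U → ok V → ok (U ⊓ V)
  mono : ∀ {U V : Subgroup G}, ok U → U ≤ V → ok V
  exists_normal : ∀ {U : Subgroup G}, ok U → ∃ N : Subgroup G, ok N ∧ N.Normal ∧ N ≤ U
  finiteIndex : ∀ {U : Subgroup G}, ok U → U.FiniteIndex

variable {G : Type} [Group G]

/-- The restriction of a family of levels to a subgroup. -/
def Levels.restrict (𝓛 : Levels G) (H : Subgroup G) : Levels H where
  ok U := ∃ V, 𝓛.ok V ∧ V.subgroupOf H ≤ U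
  top_ok := ⟨⊤, 𝓛.top_ok, le_top⟩
  inf_ok := fun ⟨V, hV, hVU⟩ ⟨V', hV', hVU'⟩ => ⟨V ⊓ V', 𝓛.inf_ok hV hV',
    le_inf (le_trans (Subgroup.comap_mono inf_le_left) hVU)
      (le_trans (Subgroup.comap_mono inf_le_right) hVU')⟩
  mono := fun ⟨V, hV, hVU⟩ h => ⟨V, hV, hVU.trans h⟩
  exists_normal := fun ⟨V, hV, hVU⟩ => by
    obtain ⟨N, hN, hNn, hNV⟩ := 𝓛.exists_normal hV
    have := hNn
    exact ⟨N.subgroupOf H, ⟨N, hN, le_rfl⟩, Subgroup.normal_comap _,
      (Subgroup.comap_mono hNV).trans hVU⟩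
  finiteIndex := fun ⟨V, hV, hVU⟩ => by
    have := 𝓛.finiteIndex hV
    exact Subgroup.finiteIndex_of_le hVU

/-- A homomorphism compatible with two families of levels. -/
def Levels.Compat {G' : Type} [Group G'] (𝓛' : Levels G') (𝓛 : Levels G) (f : G' →* G) : Prop :=
  ∀ U, 𝓛.ok U → 𝓛'.ok (U.comap f)

lemma Levels.compat_subtype (𝓛 : Levels G) (H : Subgroup G) :
    (𝓛.restrict H).Compat 𝓛 H.subtype := fun U hU => ⟨U, hU, le_rfl⟩

lemma Levels.compat_id (𝓛 : Levels G) : 𝓛.Compat 𝓛 (MonoidHom.id G) := fun _ hU => hU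

lemma Levels.Compat.comp {G' G'' : Type} [Group G'] [Group G''] {𝓛'' : Levels G''}
    {𝓛' : Levels G'} {𝓛 : Levels G} {f' : G'' →* G'} {f : G' →* G} (h' : 𝓛''.Compat 𝓛' f')
    (h : 𝓛'.Compat 𝓛 f) : 𝓛''.Compat 𝓛 (f.comp f') := fun U hU => by
  rw [← Subgroup.comap_comap]
  exact h' _ (h U hU)

variable (𝓛 : Levels G)

section Constancy

variable {X Y Z : Type}

/-- Invariance under right translation by some level. -/
def IsConst₁ (f : G → X) : Prop := ∃ U, 𝓛.ok U ∧ ∀ g, ∀ s ∈ U, f (g * s) = f g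

/-- Invariance under right translation by some level in each variable. -/
def IsConst₂ (f : G → G → X) : Prop :=
  ∃ U, 𝓛.ok U ∧ ∀ g h, ∀ s ∈ U, ∀ t ∈ U, f (g * s) (h * t) = f g h

variable {𝓛}

lemma isConst₁_const (x : X) : IsConst₁ 𝓛 fun _ => x := ⟨⊤, 𝓛.top_ok, fun _ _ _ => rfl⟩

lemma isConst₂_const (x : X) : IsConst₂ 𝓛 fun _ _ => x :=
  ⟨⊤, 𝓛.top_ok, fun _ _ _ _ _ _ => rfl⟩

lemma IsConst₁.comp {f : G → X} (hf : IsConst₁ 𝓛 f) (φ : X → Y) :
    IsConst₁ 𝓛 fun g => φ (f g) := by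
  obtain ⟨U, hU, h⟩ := hf
  exact ⟨U, hU, fun g s hs => by dsimp only; rw [h g s hs]⟩

lemma IsConst₂.comp {f : G → G → X} (hf : IsConst₂ 𝓛 f) (φ : X → Y) :
    IsConst₂ 𝓛 fun g h => φ (f g h) := by
  obtain ⟨U, hU, h⟩ := hf
  exact ⟨U, hU, fun g g' s hs t ht => by dsimp only; rw [h g g' s hs t ht]⟩

lemma IsConst₁.comp₂ {f : G → X} {f' : G → Y} (hf : IsConst₁ 𝓛 f) (hf' : IsConst₁ 𝓛 f')
    (φ : X → Y → Z) : IsConst₁ 𝓛 fun g => φ (f g) (f' g) := by
  obtain ⟨U, hU, h⟩ := hf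
  obtain ⟨U', hU', h'⟩ := hf'
  exact ⟨U ⊓ U', 𝓛.inf_ok hU hU', fun g s hs => by dsimp only; rw [h g s hs.1, h' g s hs.2]⟩

lemma IsConst₂.comp₂ {f : G → G → X} {f' : G → G → Y} (hf : IsConst₂ 𝓛 f) (hf' : IsConst₂ 𝓛 f')
    (φ : X → Y → Z) : IsConst₂ 𝓛 fun g h => φ (f g h) (f' g h) := by
  obtain ⟨U, hU, h⟩ := hf
  obtain ⟨U', hU', h'⟩ := hf'
  exact ⟨U ⊓ U', 𝓛.inf_ok hU hU', fun g g' s hs t ht => by
    dsimp only; rw [h g g' s hs.1 t ht.1, h' g g' s hs.2 t ht.2]⟩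

lemma IsConst₁.fst {f : G → X} (hf : IsConst₁ 𝓛 f) : IsConst₂ 𝓛 fun g _ => f g := by
  obtain ⟨U, hU, h⟩ := hf
  exact ⟨U, hU, fun g _ s hs _ _ => h g s hs⟩

lemma IsConst₁.snd {f : G → X} (hf : IsConst₁ 𝓛 f) : IsConst₂ 𝓛 fun _ h => f h := by
  obtain ⟨U, hU, h⟩ := hf
  exact ⟨U, hU, fun _ g' _ _ t ht => h g' t ht⟩

/-- A right invariant function is left invariant under a possibly smaller level. -/
lemma IsConst₁.exists_left {f : G → X} (hf : IsConst₁ 𝓛 f) :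
    ∃ N, 𝓛.ok N ∧ N.Normal ∧ ∀ g, ∀ s ∈ N, f (g * s) = f g ∧ f (s * g) = f g := by
  obtain ⟨U, hU, h⟩ := hf
  obtain ⟨N, hN, hNn, hNU⟩ := 𝓛.exists_normal hU
  refine ⟨N, hN, hNn, fun g s hs => ⟨h g s (hNU hs), ?_⟩⟩
  have h1 : s * g = g * (g⁻¹ * s * g⁻¹⁻¹) := by group
  rw [h1, h g _ (hNU (hNn.conj_mem s hs g⁻¹))]

lemma IsConst₁.mul {f : G → X} (hf : IsConst₁ 𝓛 f) : IsConst₂ 𝓛 fun g h => f (g * h) := by
  obtain ⟨N, hN, hNn, h⟩ := hf.exists_left
  refine ⟨N, hN, fun g g' s hs t ht => ?_⟩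
  have h1 : g * s * (g' * t) = g * g' * (g'⁻¹ * s * g'⁻¹⁻¹ * t) := by group
  dsimp only
  rw [h1]
  exact (h _ _ (N.mul_mem (hNn.conj_mem s hs g'⁻¹) ht)).1

lemma IsConst₁.precomp {G' : Type} [Group G'] {𝓛' : Levels G'} {f : G' →* G}
    (hf : 𝓛'.Compat 𝓛 f) {u : G → X} (hu : IsConst₁ 𝓛 u) : IsConst₁ 𝓛' fun g => u (f g) := by
  obtain ⟨U, hU, h⟩ := hu
  exact ⟨U.comap f, hf U hU, fun g s hs => by dsimp only; rw [map_mul]; exact h _ _ hs⟩

lemma IsConst₂.precomp {G' : Type} [Group G'] {𝓛' : Levels G'} {f : G' →* G}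
    (hf : 𝓛'.Compat 𝓛 f) {u : G → G → X} (hu : IsConst₂ 𝓛 u) :
    IsConst₂ 𝓛' fun g h => u (f g) (f h) := by
  obtain ⟨U, hU, h⟩ := hu
  exact ⟨U.comap f, hf U hU, fun g g' s hs t ht => by
    dsimp only; rw [map_mul, map_mul]; exact h _ _ _ hs _ ht⟩

end Constancy

section Module

variable (A : Type) [AddCommGroup A] [DistribMulAction G A]

/-- Every element is fixed by a level. -/
def IsSmooth : Prop := ∀ a : A, ∃ U, 𝓛.ok U ∧ ∀ s ∈ U, s • a = a

variable {𝓛 A}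

lemma IsSmooth.isConst₁_smul (hA : IsSmooth 𝓛 A) (a : A) : IsConst₁ 𝓛 fun g => g • a := by
  obtain ⟨U, hU, h⟩ := hA a
  exact ⟨U, hU, fun g s hs => by dsimp only; rw [mul_smul, h s hs]⟩

/-- Finitely many elements are fixed by a common level. -/
lemma IsSmooth.exists_fixing (hA : IsSmooth 𝓛 A) {ι : Type} [Finite ι] (a : ι → A) :
    ∃ U, 𝓛.ok U ∧ ∀ i, ∀ s ∈ U, s • a i = a i := by
  classical
  cases nonempty_fintype ι
  suffices h : ∀ t : Finset ι, ∃ U, 𝓛.ok U ∧ ∀ i ∈ t, ∀ s ∈ U, s • a i = a i by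
    obtain ⟨U, hU, h⟩ := h Finset.univ
    exact ⟨U, hU, fun i => h i (Finset.mem_univ i)⟩
  intro t
  induction t using Finset.induction_on with
  | empty => exact ⟨⊤, 𝓛.top_ok, by simp⟩
  | insert i t _ ih =>
    obtain ⟨U, hU, h⟩ := ih
    obtain ⟨V, hV, h'⟩ := hA (a i)
    refine ⟨U ⊓ V, 𝓛.inf_ok hU hV, fun j hj s hs => ?_⟩
    rcases Finset.mem_insert.mp hj with rfl | hj
    · exact h' s hs.2
    · exact h j hj s hs.1

/-- Translating the values of a constant function by the first variable preserves constancy. -/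
lemma IsSmooth.isConst₂_smul_snd (hA : IsSmooth 𝓛 A) {f : G → A} (hf : IsConst₁ 𝓛 f) :
    IsConst₂ 𝓛 fun g h => g • f h := by
  obtain ⟨U, hU, h⟩ := hf
  have := 𝓛.finiteIndex hU
  obtain ⟨V, hV, hfix⟩ := hA.exists_fixing (fun q : G ⧸ U => f q.out)
  refine ⟨U ⊓ V, 𝓛.inf_ok hU hV, fun g g' s hs t ht => ?_⟩
  obtain ⟨u, hu⟩ := QuotientGroup.mk_out_eq_mul U g'
  have h1 : f g' = f (g' : G ⧸ U).out := by rw [hu, h _ _ u.2]
  simp only [mul_smul, h g' t ht.1, h1, hfix _ s hs.2]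

variable (G A)

/-- The invariants. -/
def inv : AddSubgroup A where
  carrier := {a | ∀ g : G, g • a = a}
  add_mem' ha hb g := by rw [smul_add, ha g, hb g]
  zero_mem' g := smul_zero g
  neg_mem' ha g := by rw [smul_neg, ha g]

variable {G A}

variable (G A)

/-- The differential in degree zero. -/
def d₀ : A →+ G → A where
  toFun a g := g • a - a
  map_zero' := by funext g; simp
  map_add' a b := by funext g; simp [smul_add]; abel

/-- The differential in degree one. -/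
def d₁ : (G → A) →+ G → G → A where
  toFun f g h := g • f h - f (g * h) + f g
  map_zero' := by funext g h; simp
  map_add' f f' := by funext g h; simp [smul_add]; abel

variable {G A}

lemma d₀_apply (a : A) (g : G) : d₀ G A a g = g • a - a := rfl

lemma d₁_apply (f : G → A) (g h : G) : d₁ G A f g h = g • f h - f (g * h) + f g := rfl

lemma d₁_d₀ (a : A) : d₁ G A (d₀ G A a) = 0 := by
  funext g h
  simp only [d₁_apply, d₀_apply, smul_sub, mul_smul, Pi.zero_apply]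
  abel

variable (𝓛 A)

/-- Continuous one-cocycles. -/
def Z1 : AddSubgroup (G → A) where
  carrier := {f | IsConst₁ 𝓛 f ∧ d₁ G A f = 0}
  add_mem' hf hf' := ⟨hf.1.comp₂ hf'.1 (· + ·), by rw [map_add, hf.2, hf'.2, add_zero]⟩
  zero_mem' := ⟨isConst₁_const 0, map_zero _⟩
  neg_mem' hf := ⟨hf.1.comp (- ·), by rw [map_neg, hf.2, neg_zero]⟩

/-- Continuous two-cocycles. -/
def Z2 : AddSubgroup (G → G → A) where
  carrier := {f | IsConst₂ 𝓛 f ∧
    ∀ g h j, g • f h j - f (g * h) j + f g (h * j) - f g h = 0}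
  add_mem' {f f'} hf hf' := ⟨hf.1.comp₂ hf'.1 (· + ·), fun g h j => by
    have h1 := hf.2 g h j
    have h2 := hf'.2 g h j
    simp only [Pi.add_apply, smul_add]
    calc g • f h j + g • f' h j - (f (g * h) j + f' (g * h) j) + (f g (h * j) + f' g (h * j))
          - (f g h + f' g h)
        = (g • f h j - f (g * h) j + f g (h * j) - f g h) +
          (g • f' h j - f' (g * h) j + f' g (h * j) - f' g h) := by abel
      _ = 0 := by rw [h1, h2, add_zero]⟩
  zero_mem' := ⟨isConst₂_const 0, by simp⟩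
  neg_mem' {f} hf := ⟨hf.1.comp (- ·), fun g h j => by
    have h1 := hf.2 g h j
    simp only [Pi.neg_apply, smul_neg]
    calc -(g • f h j) - -f (g * h) j + -f g (h * j) - -f g h
        = -(g • f h j - f (g * h) j + f g (h * j) - f g h) := by abel
      _ = 0 := by rw [h1, neg_zero]⟩

/-- The coboundaries of constant one-cochains. -/
def B2 : AddSubgroup (G → G → A) where
  carrier := {f | ∃ u : G → A, IsConst₁ 𝓛 u ∧ d₁ G A u = f}
  add_mem' := fun ⟨u, hu, e⟩ ⟨u', hu', e'⟩ =>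
    ⟨u + u', hu.comp₂ hu' (· + ·), by rw [map_add, e, e']⟩
  zero_mem' := ⟨0, isConst₁_const 0, map_zero _⟩
  neg_mem' := fun ⟨u, hu, e⟩ => ⟨-u, hu.comp (- ·), by rw [map_neg, e]⟩

/-- Continuous first cohomology. -/
abbrev H1 : Type := Z1 𝓛 A ⧸ (d₀ G A).range.addSubgroupOf (Z1 𝓛 A)

/-- Continuous second cohomology. -/
abbrev H2 : Type := Z2 𝓛 A ⧸ (B2 𝓛 A).addSubgroupOf (Z2 𝓛 A)

variable {𝓛 A}

lemma mem_Z1 {f : G → A} : f ∈ Z1 𝓛 A ↔ IsConst₁ 𝓛 f ∧ ∀ g h, f (g * h) = g • f h + f g := by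
  refine and_congr_right fun _ => ⟨fun h g g' => ?_, fun h => ?_⟩
  · have := congrFun (congrFun h g) g'
    simp only [d₁_apply, Pi.zero_apply] at this
    rw [← sub_eq_zero, ← neg_eq_zero, ← this]
    abel
  · funext g g'
    simp only [d₁_apply, h g g', Pi.zero_apply]
    abel

lemma isConst₂_d₁ (hA : IsSmooth 𝓛 A) {u : G → A} (hu : IsConst₁ 𝓛 u) :
    IsConst₂ 𝓛 (d₁ G A u) :=
  ((hA.isConst₂_smul_snd hu).comp₂ hu.mul (· - ·)).comp₂ hu.fst (· + ·)

lemma d₁_mem_Z2 (hA : IsSmooth 𝓛 A) {u : G → A} (hu : IsConst₁ 𝓛 u) :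
    d₁ G A u ∈ Z2 𝓛 A := by
  refine ⟨isConst₂_d₁ hA hu, fun g h j => ?_⟩
  simp only [d₁_apply, smul_add, smul_sub, mul_smul, mul_assoc]
  abel

lemma d₀_mem_Z1 (hA : IsSmooth 𝓛 A) (a : A) : d₀ G A a ∈ Z1 𝓛 A :=
  ⟨(hA.isConst₁_smul a).comp (· - a), d₁_d₀ a⟩

namespace H1

/-- The class of a cocycle. -/
def mk : Z1 𝓛 A →+ H1 𝓛 A := QuotientAddGroup.mk' _

lemma mk_surjective : Function.Surjective (mk (𝓛 := 𝓛) (A := A)) :=
  QuotientAddGroup.mk'_surjective _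

lemma mk_eq_zero {f : Z1 𝓛 A} : mk f = 0 ↔ ∃ a : A, ∀ g : G, (f : G → A) g = g • a - a :=
  (QuotientAddGroup.eq_zero_iff f).trans
    ⟨fun ⟨a, ha⟩ => ⟨a, fun g => (congrFun ha g).symm⟩,
      fun ⟨a, ha⟩ => ⟨a, funext fun g => (ha g).symm⟩⟩

lemma mk_eq_mk {f f' : Z1 𝓛 A} :
    mk f = mk f' ↔ ∃ a : A, ∀ g : G, (f : G → A) g = (f' : G → A) g + (g • a - a) := by
  rw [← sub_eq_zero, ← map_sub, mk_eq_zero]
  simp [sub_eq_iff_eq_add']

end H1

namespace H2

/-- The class of a cocycle. -/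
def mk : Z2 𝓛 A →+ H2 𝓛 A := QuotientAddGroup.mk' _

lemma mk_surjective : Function.Surjective (mk (𝓛 := 𝓛) (A := A)) :=
  QuotientAddGroup.mk'_surjective _

lemma mk_eq_zero {f : Z2 𝓛 A} :
    mk f = 0 ↔ ∃ u : G → A, IsConst₁ 𝓛 u ∧ d₁ G A u = f :=
  QuotientAddGroup.eq_zero_iff f

lemma mk_eq_mk {f f' : Z2 𝓛 A} :
    mk f = mk f' ↔ ∃ u : G → A, IsConst₁ 𝓛 u ∧ (f : G → G → A) = f' + d₁ G A u := by
  rw [← sub_eq_zero, ← map_sub, mk_eq_zero]
  refine exists_congr fun u => and_congr_right fun _ => ?_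
  rw [eq_comm, AddSubgroup.coe_sub, sub_eq_iff_eq_add']

end H2

end Module

section Map

variable {G' : Type} [Group G'] {𝓛} {𝓛' : Levels G'} {A B : Type} [AddCommGroup A]
  [DistribMulAction G A] [AddCommGroup B] [DistribMulAction G' B]

/-- Compatibility of a map of modules with a map of groups. -/
def IsEquivariant (f : G' →* G) (φ : A →+ B) : Prop := ∀ g a, φ (f g • a) = g • φ a

variable {f : G' →* G} {φ : A →+ B} (hf : 𝓛'.Compat 𝓛 f) (hφ : IsEquivariant f φ)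

include hφ in
lemma IsEquivariant.d₁_map (u : G → A) (g h : G') :
    d₁ G' B (fun j => φ (u (f j))) g h = φ (d₁ G A u (f g) (f h)) := by
  simp only [d₁_apply, map_add, map_sub, hφ g, map_mul]

include hφ in
lemma IsEquivariant.map_inv {a : A} (ha : a ∈ inv G A) : φ a ∈ inv G' B := fun g => by
  rw [← hφ, ha]

/-- The induced map on one-cocycles. -/
def Z1.map : Z1 𝓛 A →+ Z1 𝓛' B where
  toFun u := ⟨fun g => φ ((u : G → A) (f g)), (u.2.1.precomp hf).comp φ, by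
    funext g h
    rw [hφ.d₁_map, u.2.2]
    exact map_zero φ⟩
  map_zero' := Subtype.ext (funext fun g => map_zero φ)
  map_add' u v := Subtype.ext (funext fun g => map_add φ _ _)

/-- The induced map on two-cocycles. -/
def Z2.map : Z2 𝓛 A →+ Z2 𝓛' B where
  toFun u := ⟨fun g h => φ ((u : G → G → A) (f g) (f h)), (u.2.1.precomp hf).comp φ,
    fun g h j => by
      have h1 := congrArg φ (u.2.2 (f g) (f h) (f j))
      simpa only [map_sub, map_add, map_zero, hφ g, map_mul] using h1⟩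
  map_zero' := Subtype.ext (funext fun g => funext fun h => map_zero φ)
  map_add' u v := Subtype.ext (funext fun g => funext fun h => map_add φ _ _)

lemma Z1.map_apply (u : Z1 𝓛 A) (g : G') :
    (Z1.map hf hφ u : G' → B) g = φ ((u : G → A) (f g)) := rfl

lemma Z2.map_apply (u : Z2 𝓛 A) (g h : G') :
    (Z2.map hf hφ u : G' → G' → B) g h = φ ((u : G → G → A) (f g) (f h)) := rfl

/-- The induced map on first cohomology. -/
def H1.map : H1 𝓛 A →+ H1 𝓛' B :=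
  QuotientAddGroup.map _ _ (Z1.map hf hφ) fun u hu => by
    obtain ⟨a, ha⟩ := hu
    refine ⟨φ a, funext fun g => ?_⟩
    show g • φ a - φ a = φ ((u : G → A) (f g))
    rw [show (u : G → A) = d₀ G A a from ha.symm, d₀_apply, map_sub, hφ]

/-- The induced map on second cohomology. -/
def H2.map : H2 𝓛 A →+ H2 𝓛' B :=
  QuotientAddGroup.map _ _ (Z2.map hf hφ) fun u hu => by
    obtain ⟨v, hv, hv'⟩ := hu
    refine ⟨fun g => φ (v (f g)), (hv.precomp hf).comp φ, funext fun g => funext fun h => ?_⟩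
    rw [hφ.d₁_map, hv']
    rfl

@[simp] lemma H1.map_mk (u : Z1 𝓛 A) : H1.map hf hφ (H1.mk u) = H1.mk (Z1.map hf hφ u) := rfl

@[simp] lemma H2.map_mk (u : Z2 𝓛 A) : H2.map hf hφ (H2.mk u) = H2.mk (Z2.map hf hφ u) := rfl

section Comp

variable {G'' : Type} [Group G''] {𝓛'' : Levels G''} {C : Type} [AddCommGroup C]
  [DistribMulAction G'' C] {f' : G'' →* G'} {ψ : B →+ C} (hf' : 𝓛''.Compat 𝓛' f')
  (hψ : IsEquivariant f' ψ)

include hφ hψ in
lemma IsEquivariant.comp : IsEquivariant (f.comp f') (ψ.comp φ) := fun g a => by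
  simp [hφ (f' g), hψ g]

lemma H1.map_map (x : H1 𝓛 A) :
    H1.map hf' hψ (H1.map hf hφ x) = H1.map (hf'.comp hf) (hφ.comp hψ) x := by
  obtain ⟨u, rfl⟩ := H1.mk_surjective x
  rfl

/-- Functoriality of `H2.map`. -/
lemma H2.map_map (x : H2 𝓛 A) :
    H2.map hf' hψ (H2.map hf hφ x) = H2.map (hf'.comp hf) (hφ.comp hψ) x := by
  obtain ⟨u, rfl⟩ := H2.mk_surjective x
  rfl

end Comp

end Map

end Fermat.Agent.Duality.Coh
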