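import Fermat.Agent.Duality.Coh.Basic

/-!
# Corestriction in degrees at most two
-/

set_option autoImplicit false

noncomputable section

namespace Fermat.Agent.Duality.Coh

variable {G : Type} [Group G] {𝓛 : Levels G} (H : Subgroup G) {A : Type} [AddCommGroup A]
  [DistribMulAction G A]

/-- Restriction to a subgroup is equivariant. -/
lemma isEquivariant_res : IsEquivariant (A := A) (B := A) H.subtype (AddMonoidHom.id A) :=
  fun _ _ => rfl

/-- Restriction in degree one. -/
def res₁ : H1 𝓛 A →+ H1 (𝓛.restrict H) A := H1.map (𝓛.compat_subtype H) (isEquivariant_res H)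

/-- Restriction in degree two. -/
def res₂ : H2 𝓛 A →+ H2 (𝓛.restrict H) A := H2.map (𝓛.compat_subtype H) (isEquivariant_res H)

/-- The factor in `H` of `g * s q`. -/
def cosetFactor (g : G) (q : G ⧸ H) : H :=
  ⟨(g • q).out⁻¹ * (g * q.out), by
    rw [← QuotientGroup.eq]
    rw [QuotientGroup.out_eq']
    conv_lhs => rw [← QuotientGroup.out_eq' q]
    rfl⟩

lemma out_mul_cosetFactor (g : G) (q : G ⧸ H) :
    (g • q).out * (cosetFactor H g q : G) = g * q.out := mul_inv_cancel_left _ _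

lemma cosetFactor_mul (g h : G) (q : G ⧸ H) :
    cosetFactor H (g * h) q = cosetFactor H g (h • q) * cosetFactor H h q := by
  apply Subtype.ext
  simp only [cosetFactor, Subgroup.coe_mul, mul_smul]
  group

/-- Translating by a small normal level does not change the coset and moves the factor inside it. -/
lemma cosetFactor_mul_right {N : Subgroup G} [hN : N.Normal] (hNH : N ≤ H) (g : G) {s : G}
    (hs : s ∈ N) (q : G ⧸ H) :
    s • q = q ∧ ∃ u : H, (u : G) ∈ N ∧ cosetFactor H (g * s) q = cosetFactor H g q * u := by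
  have h1 : q.out⁻¹ * s * q.out ∈ N := by simpa using hN.conj_mem s hs q.out⁻¹
  have hq : s • q = q := by
    conv_lhs => rw [← QuotientGroup.out_eq' q]
    conv_rhs => rw [← QuotientGroup.out_eq' q]
    show ((s * q.out : G) : G ⧸ H) = (q.out : G ⧸ H)
    rw [eq_comm, QuotientGroup.eq]
    simpa [mul_assoc] using hNH h1
  refine ⟨hq, cosetFactor H s q, ?_, ?_⟩
  · show (s • q).out⁻¹ * (s * q.out) ∈ N
    rw [hq, ← mul_assoc]
    exact h1
  · rw [cosetFactor_mul, hq]

/-- A level inside an open subgroup witnessing constancy of functions on it. -/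
lemma exists_normal_level {H : Subgroup G} (hH : 𝓛.ok H) {V : Subgroup H}
    (hV : (𝓛.restrict H).ok V) :
    ∃ N : Subgroup G, 𝓛.ok N ∧ N.Normal ∧ N ≤ H ∧ ∀ u : H, (u : G) ∈ N → u ∈ V := by
  obtain ⟨W, hW, hWV⟩ := hV
  obtain ⟨N, hN, hNn, hle⟩ := 𝓛.exists_normal (𝓛.inf_ok hH hW)
  exact ⟨N, hN, hNn, hle.trans inf_le_left, fun u hu => hWV (hle hu).2⟩

variable [Fintype (G ⧸ H)]

/-- Corestriction of one-cochains. -/
def cor₁fun : (H → A) →+ G → A where
  toFun f g := ∑ q : G ⧸ H, (g • q).out • f (cosetFactor H g q)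
  map_zero' := by funext g; simp
  map_add' f f' := by funext g; simp [smul_add, Finset.sum_add_distrib]

/-- Corestriction of two-cochains. -/
def cor₂fun : (H → H → A) →+ G → G → A where
  toFun f g h := ∑ q : G ⧸ H,
    (g • h • q).out • f (cosetFactor H g (h • q)) (cosetFactor H h q)
  map_zero' := by funext g h; simp
  map_add' f f' := by funext g h; simp [smul_add, Finset.sum_add_distrib]

/-- Corestriction of invariants. -/
def cor₀ : inv H A →+ inv G A where
  toFun a := ⟨∑ q : G ⧸ H, q.out • (a : A), fun g => by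
    rw [Finset.smul_sum]
    refine Fintype.sum_equiv (MulAction.toPerm g) _ _ fun q => ?_
    rw [MulAction.toPerm_apply, smul_smul, ← out_mul_cosetFactor H g q, mul_smul]
    exact congrArg _ (a.2 (cosetFactor H g q))⟩
  map_zero' := Subtype.ext (by simp)
  map_add' a b := Subtype.ext (by simp [smul_add, Finset.sum_add_distrib])

lemma cor₁fun_d₀ (a : A) : cor₁fun H (d₀ H A a) = d₀ G A (∑ q : G ⧸ H, q.out • a) := by
  funext g
  simp only [cor₁fun, AddMonoidHom.coe_mk, ZeroHom.coe_mk, d₀_apply, smul_sub,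
    Finset.sum_sub_distrib, Finset.smul_sum]
  congr 1
  · refine Finset.sum_congr rfl fun q _ => ?_
    rw [smul_smul, ← out_mul_cosetFactor H g q, mul_smul]
    rfl
  · exact Fintype.sum_equiv (MulAction.toPerm g) _ _ fun q => rfl

lemma cor₁fun_d₁ (f : H → A) : d₁ G A (cor₁fun H f) = cor₂fun H (d₁ H A f) := by
  funext g h
  simp only [cor₁fun, cor₂fun, AddMonoidHom.coe_mk, ZeroHom.coe_mk, d₁_apply, smul_add, smul_sub,
    Finset.sum_sub_distrib, Finset.sum_add_distrib, Finset.smul_sum]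
  congr 1
  · congr 1
    · refine Finset.sum_congr rfl fun q _ => ?_
      rw [Subgroup.smul_def (cosetFactor H g (h • q)), smul_smul, smul_smul, out_mul_cosetFactor]
    · refine Finset.sum_congr rfl fun q _ => ?_
      rw [mul_smul g h q, cosetFactor_mul]
  · exact (Fintype.sum_equiv (MulAction.toPerm h) _ _ fun q => rfl).symm

lemma isConst₁_cor₁fun (hH : 𝓛.ok H) {f : H → A} (hf : IsConst₁ (𝓛.restrict H) f) :
    IsConst₁ 𝓛 (cor₁fun H f) := by
  obtain ⟨V, hV, hfV⟩ := hf
  obtain ⟨N, hN, hNn, hNH, hNV⟩ := exists_normal_level hH hV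
  refine ⟨N, hN, fun g s hs => Finset.sum_congr rfl fun q _ => ?_⟩
  obtain ⟨hq, u, hu, he⟩ := cosetFactor_mul_right H hNH g hs q
  rw [mul_smul g s q, hq, he, hfV _ _ (hNV u hu)]

lemma isConst₂_cor₂fun (hH : 𝓛.ok H) {f : H → H → A} (hf : IsConst₂ (𝓛.restrict H) f) :
    IsConst₂ 𝓛 (cor₂fun H f) := by
  obtain ⟨V, hV, hfV⟩ := hf
  obtain ⟨N, hN, hNn, hNH, hNV⟩ := exists_normal_level hH hV
  refine ⟨N, hN, fun g h s hs t ht => Finset.sum_congr rfl fun q _ => ?_⟩
  obtain ⟨hq, u, hu, he⟩ := cosetFactor_mul_right H hNH h ht q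
  have hhq : (h * t) • q = h • q := by rw [mul_smul, hq]
  obtain ⟨hq', u', hu', he'⟩ := cosetFactor_mul_right H hNH g hs (h • q)
  rw [he, hhq, he', mul_smul g s (h • q), hq', hfV _ _ _ (hNV u' hu') _ (hNV u hu)]

/-- The homotopy between `cor ∘ res` and multiplication by the index. -/
def corResHomotopy (f : G → G → A) : G → A := fun g =>
  ∑ q : G ⧸ H, (f g q.out - f (g • q).out (cosetFactor H g q))

lemma cor₁fun_res (f : G → A) (hf : ∀ g h, f (g * h) = g • f h + f g) :
    cor₁fun H (fun u : H => f u) =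
      Fintype.card (G ⧸ H) • f + d₀ G A (∑ q : G ⧸ H, f q.out) := by
  funext g
  have h1 : ∀ q : G ⧸ H, (g • q).out • f (cosetFactor H g q) =
      g • f q.out + f g - f (g • q).out := fun q => by
    rw [← hf g q.out, ← out_mul_cosetFactor H g q, hf]
    abel
  simp only [cor₁fun, AddMonoidHom.coe_mk, ZeroHom.coe_mk, h1, Finset.sum_sub_distrib,
    Finset.sum_add_distrib, Finset.sum_const, Finset.card_univ, Pi.add_apply, Pi.smul_apply,
    d₀_apply, Finset.smul_sum]
  rw [show ∑ q : G ⧸ H, f (g • q).out = ∑ q : G ⧸ H, f q.out from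
    Fintype.sum_equiv (MulAction.toPerm g) _ _ fun q => rfl]
  abel

lemma cor₂fun_res (f : G → G → A)
    (hf : ∀ g h j, g • f h j - f (g * h) j + f g (h * j) - f g h = 0) :
    cor₂fun H (fun u v : H => f u v) =
      Fintype.card (G ⧸ H) • f - d₁ G A (corResHomotopy H f) := by
  funext g h
  have h1 : ∀ q : G ⧸ H,
      (g • h • q).out • f (cosetFactor H g (h • q)) (cosetFactor H h q) =
        f g h - g • (f h q.out - f (h • q).out (cosetFactor H h q)) +
          (f (g * h) q.out - f ((g * h) • q).out (cosetFactor H (g * h) q)) -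
          (f g (h • q).out - f (g • h • q).out (cosetFactor H g (h • q))) := fun q => by
    have e1 := hf (g • h • q).out (cosetFactor H g (h • q)) (cosetFactor H h q)
    have e2 := hf g (h • q).out (cosetFactor H h q)
    have e3 := hf g h q.out
    rw [out_mul_cosetFactor, ← Subgroup.coe_mul, ← cosetFactor_mul] at e1
    rw [out_mul_cosetFactor] at e2
    rw [mul_smul g h q, smul_sub]
    rw [← sub_eq_zero]
    calc _ = ((g • h • q).out • f (cosetFactor H g (h • q)) (cosetFactor H h q) -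
          f (g * (h • q).out) (cosetFactor H h q) +
          f (g • h • q).out (cosetFactor H (g * h) q) -
          f (g • h • q).out (cosetFactor H g (h • q))) -
        (g • f (h • q).out (cosetFactor H h q) - f (g * (h • q).out) (cosetFactor H h q) +
          f g (h * q.out) - f g (h • q).out) +
        (g • f h q.out - f (g * h) q.out + f g (h * q.out) - f g h) := by abel
      _ = 0 := by rw [e1, e2, e3]; abel
  simp only [cor₂fun, AddMonoidHom.coe_mk, ZeroHom.coe_mk, h1, Pi.sub_apply, Pi.smul_apply,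
    d₁_apply, corResHomotopy, Finset.smul_sum, Finset.sum_sub_distrib, Finset.sum_add_distrib,
    Finset.sum_const, Finset.card_univ, smul_sub]
  rw [show ∑ q : G ⧸ H, f g (h • q).out = ∑ q : G ⧸ H, f g q.out from
      Fintype.sum_equiv (MulAction.toPerm h) _ _ fun q => rfl,
    show ∑ q : G ⧸ H, f (g • h • q).out (cosetFactor H g (h • q)) =
        ∑ q : G ⧸ H, f (g • q).out (cosetFactor H g q) from
      Fintype.sum_equiv (MulAction.toPerm h) _ _ fun q => rfl]
  abel

variable (hH : 𝓛.ok H) (hA : IsSmooth 𝓛 A)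

/-- Corestriction on one-cocycles. -/
def Z1.cor : Z1 (𝓛.restrict H) A →+ Z1 𝓛 A where
  toFun f := ⟨cor₁fun H (f : H → A), isConst₁_cor₁fun H hH f.2.1, by
    rw [cor₁fun_d₁, f.2.2, map_zero]⟩
  map_zero' := Subtype.ext (map_zero (cor₁fun H))
  map_add' _ _ := Subtype.ext (map_add (cor₁fun H) _ _)

/-- Corestriction in degree one. -/
def cor₁ : H1 (𝓛.restrict H) A →+ H1 𝓛 A :=
  QuotientAddGroup.map _ _ (Z1.cor H hH) fun f hf => by
    obtain ⟨a, ha⟩ := hf
    refine ⟨∑ q : G ⧸ H, q.out • a, ?_⟩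
    show d₀ G A _ = cor₁fun H (f : H → A)
    rw [show (f : H → A) = d₀ H A a from ha.symm, cor₁fun_d₀]

@[simp] lemma cor₁_mk (f : Z1 (𝓛.restrict H) A) :
    cor₁ H hH (H1.mk f) = H1.mk (Z1.cor H hH f) := rfl

/-- `cor ∘ res` is multiplication by the index in degree one. -/
lemma cor₁_res₁ (x : H1 𝓛 A) :
    cor₁ H hH (res₁ H x) = Fintype.card (G ⧸ H) • x := by
  obtain ⟨f, rfl⟩ := H1.mk_surjective x
  rw [← map_nsmul]
  show H1.mk _ = _
  refine H1.mk_eq_mk.mpr ⟨∑ q : G ⧸ H, (f : G → A) q.out, fun g => ?_⟩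
  show cor₁fun H (fun u : H => (f : G → A) u) g = _
  rw [cor₁fun_res H _ (mem_Z1.mp f.2).2]
  rfl

lemma cor₂fun_mem_Z2 (f : Z2 (𝓛.restrict H) A) (g h j : G) :
    g • cor₂fun H (f : H → H → A) h j - cor₂fun H (f : H → H → A) (g * h) j +
      cor₂fun H (f : H → H → A) g (h * j) - cor₂fun H (f : H → H → A) g h = 0 := by
  have hsum : cor₂fun H (f : H → H → A) g h = ∑ q : G ⧸ H, (g • h • j • q).out •
      (f : H → H → A) (cosetFactor H g (h • j • q)) (cosetFactor H h (j • q)) :=
    (Fintype.sum_equiv (MulAction.toPerm j) _ _ fun q => rfl).symm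
  rw [hsum]
  simp only [cor₂fun, AddMonoidHom.coe_mk, ZeroHom.coe_mk, mul_smul, Finset.smul_sum,
    ← Finset.sum_sub_distrib, ← Finset.sum_add_distrib]
  refine Finset.sum_eq_zero fun q _ => ?_
  rw [smul_smul g, ← out_mul_cosetFactor H g (h • j • q), mul_smul, cosetFactor_mul H g h,
    cosetFactor_mul H h j, ← smul_sub, ← smul_add, ← smul_sub]
  have h1 := f.2.2 (cosetFactor H g (h • j • q)) (cosetFactor H h (j • q)) (cosetFactor H j q)
  rw [Subgroup.smul_def] at h1
  rw [h1, smul_zero]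

/-- Corestriction on two-cocycles. -/
def Z2.cor : Z2 (𝓛.restrict H) A →+ Z2 𝓛 A where
  toFun f := ⟨cor₂fun H (f : H → H → A), isConst₂_cor₂fun H hH f.2.1, cor₂fun_mem_Z2 H f⟩
  map_zero' := Subtype.ext (map_zero (cor₂fun H))
  map_add' _ _ := Subtype.ext (map_add (cor₂fun H) _ _)

/-- Corestriction in degree two. -/
def cor₂ : H2 (𝓛.restrict H) A →+ H2 𝓛 A :=
  QuotientAddGroup.map _ _ (Z2.cor H hH) fun f hf => by
    obtain ⟨u, hu, hu'⟩ := hf
    refine ⟨cor₁fun H u, isConst₁_cor₁fun H hH hu, ?_⟩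
    show d₁ G A _ = cor₂fun H (f : H → H → A)
    rw [cor₁fun_d₁, hu']
    rfl

@[simp] lemma cor₂_mk (f : Z2 (𝓛.restrict H) A) :
    cor₂ H hH (H2.mk f) = H2.mk (Z2.cor H hH f) := rfl

omit hA in
/-- `cor ∘ res` is multiplication by the index in degree two. -/
lemma cor₂_res₂ (x : H2 𝓛 A) :
    cor₂ H hH (res₂ H x) = Fintype.card (G ⧸ H) • x := by
  obtain ⟨f, rfl⟩ := H2.mk_surjective x
  rw [← map_nsmul]
  show H2.mk _ = _
  obtain ⟨N, hN, hNn, hNH⟩ := 𝓛.exists_normal hH
  have := hNn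
  obtain ⟨U, hU, hfU⟩ := f.2.1
  obtain ⟨W, hW, hWn, hWle⟩ := 𝓛.exists_normal (𝓛.inf_ok hN hU)
  have := hWn
  refine H2.mk_eq_mk.mpr ⟨-corResHomotopy H (f : G → G → A), ⟨W, hW, fun g s hs => ?_⟩, ?_⟩
  · simp only [Pi.neg_apply, corResHomotopy]
    congr 1
    refine Finset.sum_congr rfl fun q _ => ?_
    obtain ⟨hq, u, hu, he⟩ := cosetFactor_mul_right H
      (fun a ha => hNH (hWle ha).1) g hs q
    have e1 := hfU g q.out s (hWle hs).2 1 (one_mem U)
    have e2 := hfU (g • q).out (cosetFactor H g q) 1 (one_mem U) u (hWle hu).2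
    rw [mul_one] at e1 e2
    rw [mul_smul, hq, he, Subgroup.coe_mul, e1, e2]
  · funext g h
    show cor₂fun H (fun u v : H => (f : G → G → A) u v) g h = _
    rw [cor₂fun_res H _ f.2.2, map_neg]
    simp [sub_eq_add_neg]

section Map

variable {B : Type} [AddCommGroup B] [DistribMulAction G B] {φ : A →+ B}
  (hφ : IsEquivariant (MonoidHom.id G) φ)

omit [Fintype (G ⧸ H)] in
/-- An equivariant map is equivariant for a subgroup. -/
lemma IsEquivariant.subgroup (hφ : IsEquivariant (MonoidHom.id G) φ) :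
    IsEquivariant (MonoidHom.id H) φ := fun u a => hφ (u : G) a

/-- Corestriction commutes with maps of modules. -/
lemma cor₂_map (x : H2 (𝓛.restrict H) A) :
    cor₂ H hH (H2.map (Levels.compat_id _) (hφ.subgroup H) x) =
      H2.map 𝓛.compat_id hφ (cor₂ H hH x) := by
  obtain ⟨f, rfl⟩ := H2.mk_surjective x
  refine congrArg H2.mk (Subtype.ext (funext fun g => funext fun h => ?_))
  show cor₂fun H (fun u v => φ ((f : H → H → A) u v)) g h = φ (cor₂fun H (f : H → H → A) g h)
  simp only [cor₂fun, AddMonoidHom.coe_mk, ZeroHom.coe_mk, map_sum]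
  exact Finset.sum_congr rfl fun q _ => (hφ _ _).symm

end Map

end Fermat.Agent.Duality.Coh

end
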