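import Fermat.Agent.Duality.Coh.Theta

/-!
# Corestriction and the duality map in degree two
-/

set_option autoImplicit false

noncomputable section

namespace Fermat.Agent.Duality.Coh

variable {G : Type} [Group G] {𝓛 : Levels G} {H : Subgroup G} [Fintype (G ⧸ H)] {A C : Type}
  [AddCommGroup A] [DistribMulAction G A] [AddCommGroup C] [DistribMulAction G C]

/-- `cor (c ∘ res x) = (cor c) ∘ x`. -/
theorem cor₂_applyInv_res₂ (hH : 𝓛.ok H)
    (x : H2 𝓛 A) (c : inv H (HomMod A C)) :
    cor₂ H hH (applyInv (res₂ H x) c) = applyInv x (cor₀ H c) := by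
  obtain ⟨f, rfl⟩ := H2.mk_surjective x
  show H2.mk _ = H2.mk _
  let w : G ⧸ H → G → A := fun q g =>
    (f : G → G → A) g q.out - (f : G → G → A) (g • q).out (cosetFactor H g q)
  let u : G → C := fun g => ∑ q : G ⧸ H, ((g • q).out • (c : HomMod A C)) (w q g)
  rw [H2.mk_eq_mk]
  refine ⟨-u, ?_, funext fun g => funext fun h => ?_⟩
  · obtain ⟨N, hN, hNn, hNH⟩ := 𝓛.exists_normal hH
    have := hNn
    obtain ⟨U, hU, hfU⟩ := f.2.1
    obtain ⟨W, hW, hWn, hWle⟩ := 𝓛.exists_normal (𝓛.inf_ok hN hU)
    have := hWn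
    refine ⟨W, hW, fun g s hs => ?_⟩
    simp only [Pi.neg_apply, u, w]
    congr 1
    refine Finset.sum_congr rfl fun q _ => ?_
    obtain ⟨hq, v, hv, he⟩ := cosetFactor_mul_right H
      (fun a ha => hNH (hWle ha).1) g hs q
    have e1 := hfU g q.out s (hWle hs).2 1 (one_mem U)
    have e2 := hfU (g • q).out (cosetFactor H g q) 1 (one_mem U) v (hWle hv).2
    rw [mul_one] at e1 e2
    rw [mul_smul g s q, hq, he, Subgroup.coe_mul, e1, e2]
  have hcq : ∀ (g : G) (q : G ⧸ H),
      g • (q.out • (c : HomMod A C)) = (g • q).out • (c : HomMod A C) :=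
    fun g q => by
      rw [smul_smul, ← out_mul_cosetFactor H g q, mul_smul]
      exact congrArg _ (c.2 (cosetFactor H g q))
  have h1 : ∀ q : G ⧸ H,
      (g • h • q).out • (f : G → G → A) (cosetFactor H g (h • q)) (cosetFactor H h q) =
        (f : G → G → A) g h - g • w q h + w q (g * h) - w (h • q) g := fun q => by
    have e1 := f.2.2 (g • h • q).out (cosetFactor H g (h • q)) (cosetFactor H h q)
    have e2 := f.2.2 g (h • q).out (cosetFactor H h q)
    have e3 := f.2.2 g h q.out
    rw [out_mul_cosetFactor, ← Subgroup.coe_mul, ← cosetFactor_mul] at e1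
    rw [out_mul_cosetFactor] at e2
    simp only [w]
    rw [mul_smul g h q, smul_sub]
    rw [← sub_eq_zero]
    calc _ = ((g • h • q).out • (f : G → G → A) (cosetFactor H g (h • q)) (cosetFactor H h q) -
          (f : G → G → A) (g * (h • q).out) (cosetFactor H h q) +
          (f : G → G → A) (g • h • q).out (cosetFactor H (g * h) q) -
          (f : G → G → A) (g • h • q).out (cosetFactor H g (h • q))) -
        (g • (f : G → G → A) (h • q).out (cosetFactor H h q) -
          (f : G → G → A) (g * (h • q).out) (cosetFactor H h q) +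
          (f : G → G → A) g (h * q.out) - (f : G → G → A) g (h • q).out) +
        (g • (f : G → G → A) h q.out - (f : G → G → A) (g * h) q.out +
          (f : G → G → A) g (h * q.out) - (f : G → G → A) g h) := by abel
      _ = 0 := by rw [e1, e2, e3]; abel
  have hterm : ∀ q : G ⧸ H,
      (g • h • q).out • (c : HomMod A C)
        ((f : G → G → A) (cosetFactor H g (h • q)) (cosetFactor H h q)) =
      ((g • h • q).out • (c : HomMod A C)) ((f : G → G → A) g h)
        - g • (((h • q).out • (c : HomMod A C)) (w q h))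
        + (((g * h) • q).out • (c : HomMod A C)) (w q (g * h))
        - ((g • h • q).out • (c : HomMod A C)) (w (h • q) g) := fun q => by
    rw [← HomMod.smul_apply_smul (g • h • q).out (c : HomMod A C), h1 q, map_sub, map_add,
      map_sub, ← hcq g (h • q), HomMod.smul_apply_smul, hcq g (h • q), mul_smul g h q]
  have hcor : ((cor₀ H c : inv G (HomMod A C)) : HomMod A C) ((f : G → G → A) g h) =
      ∑ q : G ⧸ H, ((g • h • q).out • (c : HomMod A C)) ((f : G → G → A) g h) := by
    show HomMod.eval (∑ q : G ⧸ H, q.out • (c : HomMod A C)) _ = _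
    rw [map_sum, AddMonoidHom.finsetSum_apply]
    exact ((Fintype.sum_equiv ((MulAction.toPerm h).trans (MulAction.toPerm g)) _ _
      fun q => rfl)).symm
  show ∑ q : G ⧸ H, (g • h • q).out • (c : HomMod A C)
        ((f : G → G → A) (cosetFactor H g (h • q)) (cosetFactor H h q)) =
      ((cor₀ H c : inv G (HomMod A C)) : HomMod A C) ((f : G → G → A) g h) + d₁ G C (-u) g h
  rw [hcor, map_neg, Pi.neg_apply, Pi.neg_apply, d₁_apply]
  simp only [hterm, Finset.sum_sub_distrib, Finset.sum_add_distrib]
  rw [show ∑ q : G ⧸ H, g • (((h • q).out • (c : HomMod A C)) (w q h)) = g • u h from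
      (Finset.smul_sum).symm,
    show ∑ q : G ⧸ H, ((g • h • q).out • (c : HomMod A C)) (w (h • q) g) = u g from
      Fintype.sum_equiv (MulAction.toPerm h) _ _ fun q => rfl]
  simp only [u]
  abel

end Fermat.Agent.Duality.Coh

end
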