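import Fermat.Agent.Duality.Coh.Mackey

/-!
# Transitivity of corestriction in degree two
-/

set_option autoImplicit false

noncomputable section

namespace Fermat.Agent.Duality.Coh

variable {G : Type} [Group G] {𝓛 : Levels G} {H : Subgroup G} {K : Subgroup G}
  {A : Type} [AddCommGroup A] [DistribMulAction G A]

section Trans

variable (hH : 𝓛.ok H) (hK : 𝓛.ok K) (hKH : K ≤ H)

include hKH in
lemma compat_subgroupOfEquiv :
    ((𝓛.restrict H).restrict (K.subgroupOf H)).Compat (𝓛.restrict K)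
      (Subgroup.subgroupOfEquivOfLe hKH).toMonoidHom :=
  fun _ ⟨V, hV, hVU⟩ => ⟨V.subgroupOf H, ⟨V, hV, le_rfl⟩, fun _ hg => hVU hg⟩

include hKH in
lemma isEquivariant_subgroupOfEquiv :
    IsEquivariant (A := A) (B := A) (Subgroup.subgroupOfEquivOfLe hKH).toMonoidHom
      (AddMonoidHom.id A) := fun _ _ => rfl

/-- Identify the cohomology of `K` and of `K` seen inside `H`. -/
def toSubgroupOf₂ : H2 (𝓛.restrict K) A →+ H2 ((𝓛.restrict H).restrict (K.subgroupOf H)) A :=
  H2.map (compat_subgroupOfEquiv hKH) (isEquivariant_subgroupOfEquiv hKH)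

/-- Identify the first cohomology of `K` and of `K` seen inside `H`. -/
def toSubgroupOf₁ : H1 (𝓛.restrict K) A →+ H1 ((𝓛.restrict H).restrict (K.subgroupOf H)) A :=
  H1.map (compat_subgroupOfEquiv hKH) (isEquivariant_subgroupOfEquiv hKH)

/-- The bijection between cosets of `K` and pairs of cosets. -/
def cosetPair (z : (G ⧸ H) × (H ⧸ K.subgroupOf H)) : G ⧸ K :=
  ((z.1.out * (z.2.out : G) : G) : G ⧸ K)

include hKH in
lemma cosetPair_bijective : Function.Bijective (cosetPair (H := H) (K := K)) := by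
  constructor
  · rintro ⟨x, y⟩ ⟨x', y'⟩ h
    have h1 := QuotientGroup.eq.mp h
    have hx : x = x' := by
      rw [← QuotientGroup.out_eq' x, ← QuotientGroup.out_eq' x', QuotientGroup.eq]
      have h2 := H.mul_mem (H.mul_mem (y.out.2) (hKH h1)) (H.inv_mem y'.out.2)
      simpa [mul_assoc] using h2
    subst hx
    refine Prod.ext rfl ?_
    rw [← QuotientGroup.out_eq' y, ← QuotientGroup.out_eq' y', QuotientGroup.eq,
      Subgroup.mem_subgroupOf]
    simpa [mul_assoc] using h1
  · intro z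
    obtain ⟨g, rfl⟩ := QuotientGroup.mk_surjective z
    obtain ⟨a, ha⟩ := QuotientGroup.mk_out_eq_mul H g
    obtain ⟨b, hb⟩ := QuotientGroup.mk_out_eq_mul (K.subgroupOf H) a⁻¹
    refine ⟨((g : G ⧸ H), ((a⁻¹ : H) : H ⧸ K.subgroupOf H)), QuotientGroup.eq.mpr ?_⟩
    rw [ha, hb]
    simpa [mul_assoc] using Subgroup.mem_subgroupOf.mp b.2

variable [Fintype (G ⧸ H)] [Fintype (G ⧸ K)] [Fintype (H ⧸ K.subgroupOf H)]

/-- Transitivity of corestriction in degree two. -/
theorem cor₂_cor₂ (hA : IsSmooth 𝓛 A) (hK' : (𝓛.restrict H).ok (K.subgroupOf H))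
    (x : H2 (𝓛.restrict K) A) :
    cor₂ H hH (cor₂ (K.subgroupOf H) hK' (toSubgroupOf₂ hKH x)) = cor₂ K hK x := by
  obtain ⟨f, rfl⟩ := H2.mk_surjective x
  let e := Equiv.ofBijective _ (cosetPair_bijective (H := H) (K := K) hKH)
  let σ : G ⧸ K → G := fun z => (e.symm z).1.out * ((e.symm z).2.out : G)
  have hσ : ∀ z, ((σ z : G) : G ⧸ K) = z := fun z => e.apply_symm_apply z
  refine H2.mk_eq_mk.mpr ⟨-secHomotopy σ hσ (f : K → K → A),
    (isConst₁_secHomotopy hK hA σ hσ f.2.1).comp (- ·), ?_⟩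
  show cor₂fun H (cor₂fun (K.subgroupOf H) fun v w => (f : K → K → A)
      ((Subgroup.subgroupOfEquivOfLe hKH) v) ((Subgroup.subgroupOfEquivOfLe hKH) w)) =
    cor₂fun K (f : K → K → A) + d₁ G A (-secHomotopy σ hσ (f : K → K → A))
  rw [map_neg, ← sub_eq_add_neg, ← corSec_eq σ hσ (f : K → K → A) f.2.2]
  have hsmul : ∀ (g : G) (z : (G ⧸ H) × (H ⧸ K.subgroupOf H)),
      g • e z = e (g • z.1, cosetFactor H g z.1 • z.2) := fun g z => by
    show ((g * (z.1.out * (z.2.out : G)) : G) : G ⧸ K) =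
      (((g • z.1).out * ((cosetFactor H g z.1 • z.2).out : G) : G) : G ⧸ K)
    rw [← mul_assoc, ← out_mul_cosetFactor H g z.1, QuotientGroup.eq]
    have h1 := (cosetFactor (K.subgroupOf H) (cosetFactor H g z.1) z.2).2
    rw [Subgroup.mem_subgroupOf] at h1
    have h2 := out_mul_cosetFactor (K.subgroupOf H) (cosetFactor H g z.1) z.2
    have h3 := congrArg (fun t : H => (t : G)) h2
    simp only [Subgroup.coe_mul] at h3
    rw [mul_assoc, ← h3]
    simpa [mul_assoc] using K.inv_mem h1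
  have hσe : ∀ z, σ (e z) = z.1.out * (z.2.out : G) := fun z => by
    simp only [σ, Equiv.symm_apply_apply]
  have hfac : ∀ g z, secFactor σ hσ g (e z) = (Subgroup.subgroupOfEquivOfLe hKH)
      (cosetFactor (K.subgroupOf H) (cosetFactor H g z.1) z.2) := fun g z => by
    refine Subtype.ext ?_
    show (σ (g • e z))⁻¹ * (g * σ (e z)) = _
    rw [hsmul, hσe, hσe]
    show _ = ((cosetFactor (K.subgroupOf H) (cosetFactor H g z.1) z.2 : H) : G)
    simp only [cosetFactor, Subgroup.coe_mul, Subgroup.coe_inv]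
    group
  funext g h
  simp only [cor₂fun, corSec, AddMonoidHom.coe_mk, ZeroHom.coe_mk, Finset.smul_sum,
    ← Fintype.sum_prod_type']
  refine Fintype.sum_equiv e _ _ fun z => ?_
  show _ = σ (g • h • e z) • (f : K → K → A) (secFactor σ hσ g (h • e z)) (secFactor σ hσ h (e z))
  rw [hsmul h z, hfac, hfac, hsmul g, hσe, mul_smul]
  rfl

end Trans

end Fermat.Agent.Duality.Coh

end
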