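import Fermat.Agent.Duality.Coh.Exact
import Fermat.Agent.Duality.Coh.Cor

/-!
# Hom modules and cup products in low degree
-/

set_option autoImplicit false

noncomputable section

namespace Fermat.Agent.Duality.Coh

/-- Additive maps, with the conjugation action. -/
def HomMod (A C : Type) [AddCommGroup A] [AddCommGroup C] : Type := A →+ C

instance homModAddCommGroup (A C : Type) [AddCommGroup A] [AddCommGroup C] :
    AddCommGroup (HomMod A C) := inferInstanceAs (AddCommGroup (A →+ C))

instance homModFunLike (A C : Type) [AddCommGroup A] [AddCommGroup C] :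
    FunLike (HomMod A C) A C := inferInstanceAs (FunLike (A →+ C) A C)

instance homModAddMonoidHomClass (A C : Type) [AddCommGroup A] [AddCommGroup C] :
    AddMonoidHomClass (HomMod A C) A C := inferInstanceAs (AddMonoidHomClass (A →+ C) A C)

/-- View an additive map as an element of the Hom module. -/
def HomMod.of {A C : Type} [AddCommGroup A] [AddCommGroup C] (φ : A →+ C) : HomMod A C := φ

/-- The underlying additive map. -/
def HomMod.toHom {A C : Type} [AddCommGroup A] [AddCommGroup C] (φ : HomMod A C) : A →+ C := φ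

variable {G : Type} [Group G] {A B C : Type} [AddCommGroup A] [DistribMulAction G A]
  [AddCommGroup B] [DistribMulAction G B] [AddCommGroup C] [DistribMulAction G C]

@[ext] lemma HomMod.ext {φ ψ : HomMod A C} (h : ∀ a, φ a = ψ a) : φ = ψ := DFunLike.ext _ _ h

@[simp] lemma HomMod.of_apply (φ : A →+ C) (a : A) : HomMod.of φ a = φ a := rfl

@[simp] lemma HomMod.add_apply (φ ψ : HomMod A C) (a : A) : (φ + ψ) a = φ a + ψ a := rfl

@[simp] lemma HomMod.zero_apply (a : A) : (0 : HomMod A C) a = 0 := rfl

@[simp] lemma HomMod.sub_apply (φ ψ : HomMod A C) (a : A) : (φ - ψ) a = φ a - ψ a := rfl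

@[simp] lemma HomMod.neg_apply (φ : HomMod A C) (a : A) : (-φ) a = -(φ a) := rfl

instance homModAction : DistribMulAction G (HomMod A C) where
  smul g φ := HomMod.of ((DistribSMul.toAddMonoidHom C g).comp
    (φ.toHom.comp (DistribSMul.toAddMonoidHom A g⁻¹)))
  one_smul φ := by
    refine HomMod.ext fun a => ?_
    show (1 : G) • φ ((1 : G)⁻¹ • a) = φ a
    rw [inv_one, one_smul, one_smul]
  mul_smul g h φ := by
    refine HomMod.ext fun a => ?_
    show (g * h) • φ ((g * h)⁻¹ • a) = g • h • φ (h⁻¹ • g⁻¹ • a)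
    rw [mul_inv_rev, mul_smul, mul_smul]
  smul_zero g := HomMod.ext fun a => smul_zero g
  smul_add g φ ψ := HomMod.ext fun a => smul_add g _ _

lemma HomMod.smul_apply (g : G) (φ : HomMod A C) (a : A) : (g • φ) a = g • φ (g⁻¹ • a) := rfl

lemma HomMod.smul_apply_smul (g : G) (φ : HomMod A C) (a : A) : (g • φ) (g • a) = g • φ a := by
  rw [HomMod.smul_apply, inv_smul_smul]

/-- An invariant element of the Hom module is equivariant. -/
lemma HomMod.isEquivariant_of_mem_inv {φ : HomMod A C} (hφ : φ ∈ inv G (HomMod A C)) :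
    IsEquivariant (MonoidHom.id G) φ.toHom := fun g a => by
  show φ (g • a) = g • φ a
  conv_lhs => rw [← hφ g]
  exact HomMod.smul_apply_smul g φ a

/-- Evaluation. -/
def HomMod.eval : HomMod A C →+ A →+ C where
  toFun φ := φ.toHom
  map_zero' := rfl
  map_add' _ _ := rfl

/-- Smoothness of the Hom module out of a finite module. -/
lemma HomMod.isSmooth {𝓛 : Levels G} [Finite A] (hA : IsSmooth 𝓛 A) (hC : IsSmooth 𝓛 C) :
    IsSmooth 𝓛 (HomMod A C) := fun φ => by
  obtain ⟨U, hU, h⟩ := hA.exists_fixing (fun a : A => a)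
  obtain ⟨V, hV, h'⟩ := hC.exists_fixing (fun a : A => φ a)
  refine ⟨U ⊓ V, 𝓛.inf_ok hU hV, fun s hs => HomMod.ext fun a => ?_⟩
  rw [HomMod.smul_apply, h a s⁻¹ (inv_mem hs.1), h' a s hs.2]

/-- A pairing compatible with the actions. -/
def IsPairing (P : A →+ B →+ C) : Prop := ∀ (g : G) a b, P (g • a) (g • b) = g • P a b

lemma isPairing_eval : IsPairing (G := G) (HomMod.eval (A := A) (C := C)) := fun g φ a =>
  HomMod.smul_apply_smul g φ a

/-- Fixing an invariant left argument of a pairing gives an equivariant map. -/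
lemma IsPairing.left {P : A →+ B →+ C} (hP : IsPairing (G := G) P) {a : A} (ha : a ∈ inv G A) :
    IsEquivariant (MonoidHom.id G) (P a) := fun g b => by
  conv_lhs => rw [← ha g]
  exact hP g a b

/-- Fixing an invariant right argument of a pairing gives an equivariant map. -/
lemma IsPairing.right {P : A →+ B →+ C} (hP : IsPairing (G := G) P) {b : B} (hb : b ∈ inv G B) :
    IsEquivariant (MonoidHom.id G) (P.flip b) := fun g a => by
  show P (g • a) b = g • P a b
  conv_lhs => rw [← hb g]
  exact hP g a b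

variable {𝓛 : Levels G} {P : A →+ B →+ C} (hP : IsPairing (G := G) P) (hB : IsSmooth 𝓛 B)

/-- The cup product of two one-cocycles. -/
def Z1.cup : Z1 𝓛 A →+ Z1 𝓛 B →+ Z2 𝓛 C where
  toFun a :=
    { toFun := fun b => ⟨fun g h => P ((a : G → A) g) (g • (b : G → B) h),
        a.2.1.fst.comp₂ (hB.isConst₂_smul_snd b.2.1) fun x y => P x y, fun g h j => by
          simp only [← hP g, (mem_Z1.mp a.2).2 g h, (mem_Z1.mp b.2).2 h j, mul_smul, smul_add,
            map_add, AddMonoidHom.add_apply]
          abel⟩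
      map_zero' := Subtype.ext (funext fun g => funext fun h => by simp)
      map_add' := fun b b' => Subtype.ext (funext fun g => funext fun h => by simp [smul_add]) }
  map_zero' := AddMonoidHom.ext fun b => Subtype.ext (funext fun g => funext fun h => by simp)
  map_add' a a' := AddMonoidHom.ext fun b =>
    Subtype.ext (funext fun g => funext fun h => by simp)

lemma Z1.cup_apply (a : Z1 𝓛 A) (b : Z1 𝓛 B) (g h : G) :
    (Z1.cup hP hB a b : G → G → C) g h = P ((a : G → A) g) (g • (b : G → B) h) := rfl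

/-- The cup product with a coboundary on the left vanishes. -/
lemma Z1.cup_left_coboundary (a : Z1 𝓛 A) (b : Z1 𝓛 B) {x : A}
    (hx : ∀ g, (a : G → A) g = g • x - x) : H2.mk (Z1.cup hP hB a b) = 0 := by
  refine H2.mk_eq_zero.mpr ⟨fun g => P x ((b : G → B) g), b.2.1.comp (P x), ?_⟩
  funext g h
  rw [d₁_apply, Z1.cup_apply, hx, (mem_Z1.mp b.2).2 g h, map_add, map_sub, AddMonoidHom.sub_apply,
    ← hP g]
  abel

include hP in
/-- The cup product with a coboundary on the right vanishes. -/
lemma Z1.cup_right_coboundary (a : Z1 𝓛 A) (b : Z1 𝓛 B) {y : B}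
    (hy : ∀ g, (b : G → B) g = g • y - y) : H2.mk (Z1.cup hP hB a b) = 0 := by
  refine H2.mk_eq_zero.mpr ⟨fun g => -(P ((a : G → A) g) (g • y)),
    (a.2.1.comp₂ (hB.isConst₁_smul y) fun u v => P u v).comp (- ·), ?_⟩
  funext g h
  rw [d₁_apply, Z1.cup_apply, hy, (mem_Z1.mp a.2).2 g h, smul_neg, ← hP g, map_add,
    AddMonoidHom.add_apply, smul_sub, map_sub, mul_smul]
  abel

/-- The cup product in bidegree `(1, 1)`. -/
def cup₁₁ : H1 𝓛 A →+ H1 𝓛 B →+ H2 𝓛 C :=
  QuotientAddGroup.lift _
    { toFun := fun a => QuotientAddGroup.lift _ (H2.mk.comp (Z1.cup hP hB a)) fun b hb => by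
        obtain ⟨y, hy⟩ := hb
        exact Z1.cup_right_coboundary hP hB a b (y := y) fun g => (congrFun hy g).symm
      map_zero' := by
        refine AddMonoidHom.ext fun x => ?_
        obtain ⟨b, rfl⟩ := H1.mk_surjective x
        show H2.mk (Z1.cup hP hB 0 b) = 0
        simp
      map_add' := fun a a' => by
        refine AddMonoidHom.ext fun x => ?_
        obtain ⟨b, rfl⟩ := H1.mk_surjective x
        show H2.mk (Z1.cup hP hB (a + a') b) = H2.mk (Z1.cup hP hB a b) + H2.mk (Z1.cup hP hB a' b)
        simp }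
    fun a ha => by
      obtain ⟨x, hx⟩ := ha
      refine AddMonoidHom.ext fun y => ?_
      obtain ⟨b, rfl⟩ := H1.mk_surjective y
      exact Z1.cup_left_coboundary hP hB a b (x := x) fun g => (congrFun hx g).symm

/-- The cup product of the classes of two cocycles. -/
@[simp] lemma cup₁₁_mk (a : Z1 𝓛 A) (b : Z1 𝓛 B) :
    cup₁₁ hP hB (H1.mk a) (H1.mk b) = H2.mk (Z1.cup hP hB a b) := rfl

end Fermat.Agent.Duality.Coh

end
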