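import Fermat.Agent.Duality.Coh.CorApply

/-!
# Dévissage for the duality maps

The duality maps of all finite modules killed by `p` are controlled by those of a fixed module `Λ`
of order `p`, over all open subgroups fixing `Λ`.
-/

set_option autoImplicit false

noncomputable section

namespace Fermat.Agent.Duality.Coh

variable {p : ℕ} [Fact p.Prime] {Λ T : Type} [AddCommGroup Λ] [Finite Λ] [AddCommGroup T]

section PGroup

variable {G : Type} [Group G] {M : Type} [AddCommGroup M] [DistribMulAction G M] [Finite M]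

/-- A group acting through a `p`-group fixes a non-zero element of a non-zero `p`-torsion module. -/
lemma exists_fixed_ne_zero (N : Subgroup G) [N.Normal] (hN : IsPGroup p (G ⧸ N))
    (hfix : ∀ s ∈ N, ∀ m : M, s • m = m) (hp : ∀ m : M, p • m = 0) [Nontrivial M] :
    ∃ m : M, m ≠ 0 ∧ ∀ g : G, g • m = m := by
  have hle : N ≤ (MulAction.toPermHom G M).ker := fun s hs =>
    MonoidHom.mem_ker.mpr (Equiv.ext fun m => hfix s hs m)
  let f := QuotientGroup.lift N (MulAction.toPermHom G M) hle
  let : MulAction (G ⧸ N) M := MulAction.compHom M f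
  have hdvd : p ∣ Nat.card M := by
    obtain ⟨m, hm⟩ := exists_ne (0 : M)
    rw [← addOrderOf_eq_prime (hp m) hm]
    exact addOrderOf_dvd_natCard m
  obtain ⟨m, hm, hm0⟩ := hN.exists_fixed_point_of_prime_dvd_card_of_fixed_point M hdvd
    (a := 0) fun x => by
      obtain ⟨g, rfl⟩ := QuotientGroup.mk_surjective x
      exact smul_zero g
  exact ⟨m, fun h => hm0 h.symm, fun g => hm (g : G ⧸ N)⟩

omit [Finite M] in
/-- The action on the quotient by an invariant subgroup. -/
@[implicit_reducible]
def quotAction (R : AddSubgroup M) (h : ∀ (g : G), ∀ r ∈ R, g • r ∈ R) :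
    DistribMulAction G (M ⧸ R) where
  smul g := QuotientAddGroup.map R R (DistribSMul.toAddMonoidHom M g) fun r hr => h g r hr
  one_smul x := by
    obtain ⟨m, rfl⟩ := QuotientAddGroup.mk_surjective x
    exact congrArg QuotientAddGroup.mk (one_smul G m)
  mul_smul g g' x := by
    obtain ⟨m, rfl⟩ := QuotientAddGroup.mk_surjective x
    exact congrArg QuotientAddGroup.mk (mul_smul g g' m)
  smul_zero g :=
    map_zero (QuotientAddGroup.map R R (DistribSMul.toAddMonoidHom M g) fun r hr => h g r hr)
  smul_add g :=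
    map_add (QuotientAddGroup.map R R (DistribSMul.toAddMonoidHom M g) fun r hr => h g r hr)

end PGroup

section Unipotent

variable {G : Type} [Group G] {𝓛 : Levels G} {C : Type} [AddCommGroup C] [DistribMulAction G C]
  [DistribMulAction G Λ]

omit [Finite Λ] in
/-- Dévissage over a group acting through a `p`-group. -/
theorem theta_devissage (ι : H2 𝓛 C →+ T) (hC : IsSmooth 𝓛 C) (hpC : ∀ c : C, p • c = 0)
    (hpT : ∀ t : T, p • t = 0) (hΛ : Nat.card Λ = p) (hsΛ : IsSmooth 𝓛 Λ)
    (hfixΛ : ∀ (g : G) (l : Λ), g • l = l)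
    (h₂ : Function.Injective (theta₂ (A := Λ) ι))
    (h₁ : Function.Surjective (theta₁ (A := Λ) ι hsΛ))
    (N : Subgroup G) [N.Normal] (hN : IsPGroup p (G ⧸ N))
    (n : ℕ) {M : Type} [AddCommGroup M] [DistribMulAction G M] [Finite M] (hn : Nat.card M = n)
    (hM : IsSmooth 𝓛 M) (hpM : ∀ m : M, p • m = 0) (hfix : ∀ s ∈ N, ∀ m : M, s • m = m) :
    Function.Injective (theta₂ (A := M) ι) ∧ Function.Surjective (theta₁ (A := M) ι hM) := by
  induction n using Nat.strong_induction_on generalizing M with
  | _ n ih =>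
  rcases subsingleton_or_nontrivial M with hs | hs
  · have h0 : ∀ x : H2 𝓛 M, x = 0 := fun x => by
      obtain ⟨z, rfl⟩ := H2.mk_surjective x
      rw [show z = 0 from Subtype.ext (funext fun g => funext fun h => Subsingleton.elim _ _),
        map_zero]
    have h0' : ∀ e : H1 𝓛 (HomMod M C), e = 0 := fun e => by
      obtain ⟨z, rfl⟩ := H1.mk_surjective e
      rw [show z = 0 from Subtype.ext (funext fun g => HomMod.ext fun m => by
        rw [Subsingleton.elim m 0, map_zero, map_zero]), map_zero]
    refine ⟨fun x y _ => (h0 x).trans (h0 y).symm, fun φ => ⟨0, AddMonoidHom.ext fun e => ?_⟩⟩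
    rw [h0' e, map_zero, map_zero φ]
  obtain ⟨m₀, hm₀, hinv⟩ := exists_fixed_ne_zero N hN hfix hpM
  let : Module (ZMod p) M := AddCommGroup.zmodModule hpM
  let e : ZMod p ≃+ Λ := (ZMod.ringEquivCongr hΛ.symm).toAddEquiv.trans
    (zmodAddCyclicAddEquiv (isAddCyclic_of_prime_card hΛ))
  let i : Λ →+ M :=
    ((LinearMap.toSpanSingleton (ZMod p) M m₀).toAddMonoidHom).comp e.symm.toAddMonoidHom
  have hi : Function.Injective i := fun a b h => by
    have h' : ((e.symm a - e.symm b : ZMod p)) • m₀ = 0 := by
      rw [sub_smul, sub_eq_zero]; exact h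
    rw [smul_eq_zero, or_iff_left hm₀, sub_eq_zero] at h'
    exact e.symm.injective h'
  have hiinv : ∀ (g : G) (l : Λ), g • i l = i l := fun g l => by
    show g • (e.symm l • m₀) = e.symm l • m₀
    conv_rhs => rw [← hinv g]
    rw [← ZMod.natCast_zmod_val (e.symm l), Nat.cast_smul_eq_nsmul, Nat.cast_smul_eq_nsmul]
    exact map_nsmul (DistribSMul.toAddMonoidHom M g) _ m₀
  let : DistribMulAction G (M ⧸ i.range) := quotAction i.range fun g r hr => by
    obtain ⟨l, rfl⟩ := hr
    exact ⟨l, (hiinv g l).symm⟩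
  let E : ShortSeq 𝓛 Λ M (M ⧸ i.range) :=
    { i := i
      π := QuotientAddGroup.mk' i.range
      i_equiv := fun g l => by
        show i (g • l) = g • i l
        rw [hfixΛ, hiinv]
      π_equiv := fun g m => rfl
      i_inj := hi
      π_surj := QuotientAddGroup.mk'_surjective _
      exact := fun m hm => (QuotientAddGroup.eq_zero_iff m).mp hm
      π_i := fun l => (QuotientAddGroup.eq_zero_iff _).mpr ⟨l, rfl⟩
      smooth := hM }
  have hext : Function.Surjective (HomMod.pre (C := C) E.i) := fun f => by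
    obtain ⟨ψ, hψ⟩ := exists_hom_factor hpM hpC i f.toHom fun l hl => by
      rw [show l = 0 from hi (hl.trans (map_zero i).symm), map_zero]
    exact ⟨HomMod.of ψ, HomMod.ext hψ⟩
  have hlt : Nat.card (M ⧸ i.range) < n := by
    rw [← hn, AddSubgroup.card_eq_card_quotient_mul_card_addSubgroup i.range]
    refine lt_mul_of_one_lt_right Nat.card_pos ?_
    rw [← Nat.card_congr (AddMonoidHom.ofInjective hi).toEquiv, hΛ]
    exact (Fact.out : p.Prime).one_lt
  have hB := ih _ hlt (M := M ⧸ i.range) rfl E.smooth_right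
    (fun x => by
      obtain ⟨m, rfl⟩ := QuotientAddGroup.mk_surjective x
      exact (map_nsmul (QuotientAddGroup.mk' i.range) p m).symm.trans (by rw [hpM, map_zero]))
    (fun s hs x => by
      obtain ⟨m, rfl⟩ := QuotientAddGroup.mk_surjective x
      exact congrArg QuotientAddGroup.mk (hfix s hs m))
  exact ⟨theta₂_injective_of_seq ι E hC hext hpC hpT h₂ hB.1 hB.2,
    theta₁_surjective_of_seq ι E hC hext hpC hpT h₂ h₁ hB.2⟩

end Unipotent

end Fermat.Agent.Duality.Coh

end
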