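import Fermat.Agent.Duality.Coh.Basic

/-!
# Connecting maps and exactness up to degree two
-/

set_option autoImplicit false

noncomputable section

namespace Fermat.Agent.Duality.Coh

variable {G : Type} [Group G] (𝓛 : Levels G) {A B C : Type} [AddCommGroup A]
  [DistribMulAction G A] [AddCommGroup B] [DistribMulAction G B] [AddCommGroup C]
  [DistribMulAction G C]

/-- A short exact sequence of modules with smooth middle term. -/
structure ShortSeq (A B C : Type) [AddCommGroup A] [DistribMulAction G A] [AddCommGroup B]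
    [DistribMulAction G B] [AddCommGroup C] [DistribMulAction G C] where
  i : A →+ B
  π : B →+ C
  i_equiv : IsEquivariant (MonoidHom.id G) i
  π_equiv : IsEquivariant (MonoidHom.id G) π
  i_inj : Function.Injective i
  π_surj : Function.Surjective π
  exact : ∀ b, π b = 0 → ∃ a, i a = b
  π_i : ∀ a, π (i a) = 0
  smooth : IsSmooth 𝓛 B

variable {𝓛} (E : ShortSeq 𝓛 A B C)

namespace ShortSeq

include E in
lemma smooth_left : IsSmooth 𝓛 A := fun a => by
  obtain ⟨U, hU, h⟩ := E.smooth (E.i a)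
  refine ⟨U, hU, fun s hs => E.i_inj ?_⟩
  rw [← h s hs]
  exact E.i_equiv s a

include E in
lemma smooth_right : IsSmooth 𝓛 C := fun c => by
  obtain ⟨b, rfl⟩ := E.π_surj c
  obtain ⟨U, hU, h⟩ := E.smooth b
  exact ⟨U, hU, fun s hs => by rw [show s • E.π b = E.π (s • b) from (E.π_equiv s b).symm, h s hs]⟩

/-- A set-theoretic section. -/
def sec : C → B := Function.surjInv E.π_surj

lemma π_sec (c : C) : E.π (E.sec c) = c := Function.surjInv_eq E.π_surj c

/-- A left inverse of the inclusion. -/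
def pre : B → A := Function.invFun E.i

lemma i_pre {b : B} (h : E.π b = 0) : E.i (E.pre b) = b := Function.invFun_eq (E.exact b h)

lemma π_smul (g : G) (b : B) : E.π (g • b) = g • E.π b := E.π_equiv g b

lemma i_smul (g : G) (a : A) : E.i (g • a) = g • E.i a := E.i_equiv g a

/-- The cocycle attached to an invariant element of the quotient. -/
def δ₀fun (c : inv G C) : Z1 𝓛 A :=
  ⟨fun g => E.pre (g • E.sec c - E.sec c),
    (E.smooth.isConst₁_smul (E.sec c)).comp fun x => E.pre (x - E.sec c), by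
      funext g h
      apply E.i_inj
      have hz : ∀ j : G, E.π (j • E.sec c - E.sec c) = 0 := fun j => by
        rw [map_sub, E.π_smul, E.π_sec, c.2 j, sub_self]
      simp only [d₁_apply, map_add, map_sub, E.i_smul, E.i_pre (hz _), Pi.zero_apply, map_zero]
      rw [mul_smul, smul_sub]
      abel⟩

lemma i_δ₀fun (c : inv G C) (g : G) :
    E.i ((E.δ₀fun c : G → A) g) = g • E.sec c - E.sec c :=
  E.i_pre (by rw [map_sub, E.π_smul, E.π_sec, c.2 g, sub_self])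

/-- The class does not depend on the lift. -/
lemma δ₀fun_eq {c : inv G C} {b : B} (hb : E.π b = c) {z : Z1 𝓛 A}
    (hz : ∀ g, E.i ((z : G → A) g) = g • b - b) : H1.mk z = H1.mk (E.δ₀fun c) := by
  rw [H1.mk_eq_mk]
  refine ⟨E.pre (b - E.sec c), fun g => E.i_inj ?_⟩
  have hd : E.π (b - E.sec c) = 0 := by rw [map_sub, hb, E.π_sec, sub_self]
  rw [map_add, map_sub, E.i_smul, E.i_pre hd, hz, E.i_δ₀fun, smul_sub]
  abel

/-- The connecting map in degree zero. -/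
def δ₀ : inv G C →+ H1 𝓛 A where
  toFun c := H1.mk (E.δ₀fun c)
  map_zero' := by
    rw [H1.mk_eq_zero]
    refine ⟨E.pre (E.sec ((0 : inv G C) : C)), fun g => E.i_inj ?_⟩
    have hd : E.π (E.sec ((0 : inv G C) : C)) = 0 := by rw [E.π_sec]; rfl
    rw [map_sub, E.i_smul, E.i_pre hd, E.i_δ₀fun]
  map_add' c c' := by
    rw [← map_add]
    refine (E.δ₀fun_eq (b := E.sec c + E.sec c') (by
      rw [map_add, E.π_sec, E.π_sec]; rfl) fun g => ?_).symm
    rw [AddSubgroup.coe_add, Pi.add_apply, map_add, E.i_δ₀fun, E.i_δ₀fun, smul_add]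
    abel

lemma δ₀_eq {c : inv G C} {b : B} (hb : E.π b = c) {z : Z1 𝓛 A}
    (hz : ∀ g, E.i ((z : G → A) g) = g • b - b) : E.δ₀ c = H1.mk z :=
  (E.δ₀fun_eq hb hz).symm

/-- The cocycle attached to a one-cocycle of the quotient. -/
def δ₁fun (x : Z1 𝓛 C) : Z2 𝓛 A :=
  ⟨fun g h => E.pre (d₁ G B (fun j => E.sec ((x : G → C) j)) g h),
    (isConst₂_d₁ E.smooth (x.2.1.comp E.sec)).comp E.pre, fun g h j => by
      have hu : ∀ a b : G, E.π (d₁ G B (fun j => E.sec ((x : G → C) j)) a b) = 0 := fun a b => by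
        simp only [d₁_apply, map_add, map_sub, E.π_smul, E.π_sec, (mem_Z1.mp x.2).2 a b]
        abel
      apply E.i_inj
      simp only [map_add, map_sub, map_zero, E.i_smul, E.i_pre (hu _ _)]
      exact (d₁_mem_Z2 E.smooth (x.2.1.comp E.sec)).2 g h j⟩

lemma i_δ₁fun (x : Z1 𝓛 C) (g h : G) :
    E.i ((E.δ₁fun x : G → G → A) g h) = d₁ G B (fun j => E.sec ((x : G → C) j)) g h :=
  E.i_pre (by
    simp only [d₁_apply, map_add, map_sub, E.π_smul, E.π_sec, (mem_Z1.mp x.2).2 g h]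
    abel)

/-- The class does not depend on the lift. -/
lemma δ₁fun_eq {x : Z1 𝓛 C} {u : G → B} (hu : IsConst₁ 𝓛 u)
    (hux : ∀ g, E.π (u g) = (x : G → C) g) {z : Z2 𝓛 A}
    (hz : ∀ g h, E.i ((z : G → G → A) g h) = d₁ G B u g h) :
    H2.mk z = H2.mk (E.δ₁fun x) := by
  rw [H2.mk_eq_mk]
  have hd : ∀ g, E.π (u g - E.sec ((x : G → C) g)) = 0 := fun g => by
    rw [map_sub, hux, E.π_sec, sub_self]
  refine ⟨fun g => E.pre (u g - E.sec ((x : G → C) g)),
    (hu.comp₂ (x.2.1.comp E.sec) (· - ·)).comp E.pre, funext fun g => funext fun h => E.i_inj ?_⟩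
  simp only [Pi.add_apply, map_add, d₁_apply, map_sub, E.i_smul, E.i_pre (hd _), hz, E.i_δ₁fun,
    smul_sub]
  abel

/-- The connecting map on cocycles. -/
def δ₁hom : Z1 𝓛 C →+ H2 𝓛 A where
  toFun x := H2.mk (E.δ₁fun x)
  map_zero' := by
    rw [← E.δ₁fun_eq (u := fun _ => 0) (isConst₁_const 0) (fun g => by simp) (z := 0)
      (fun g h => by simp [d₁_apply]), map_zero]
  map_add' x y := by
    rw [← map_add]
    refine (E.δ₁fun_eq (u := (fun g => E.sec ((x : G → C) g)) + fun g => E.sec ((y : G → C) g))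
      ((x.2.1.comp E.sec).comp₂ (y.2.1.comp E.sec) (· + ·))
      (fun g => by rw [Pi.add_apply, map_add, E.π_sec, E.π_sec]; rfl) fun g h => ?_).symm
    rw [map_add]
    simp only [AddSubgroup.coe_add, Pi.add_apply, map_add, E.i_δ₁fun]

/-- The connecting map in degree one. -/
def δ₁ : H1 𝓛 C →+ H2 𝓛 A :=
  QuotientAddGroup.lift _ E.δ₁hom fun x hx => by
    obtain ⟨c, hc⟩ := hx
    show E.δ₁hom x = 0
    have h1 : H2.mk (0 : Z2 𝓛 A) = H2.mk (E.δ₁fun x) :=
      E.δ₁fun_eq (u := fun g => g • E.sec c - E.sec c)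
        ((E.smooth.isConst₁_smul _).comp (· - E.sec c))
        (fun g => by
          rw [map_sub, E.π_smul, E.π_sec, show (x : G → C) = d₀ G C c from hc.symm, d₀_apply])
        (fun g h => by
          rw [show d₁ G B (fun j => j • E.sec c - E.sec c) = 0 from d₁_d₀ (E.sec c)]
          simp)
    rw [map_zero] at h1
    exact h1.symm

lemma δ₁_mk (x : Z1 𝓛 C) : E.δ₁ (H1.mk x) = H2.mk (E.δ₁fun x) := rfl

/-- The map `H¹(A) → H¹(B)`. -/
def mapI₁ : H1 𝓛 A →+ H1 𝓛 B := H1.map 𝓛.compat_id E.i_equiv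

/-- The map `H¹(B) → H¹(C)`. -/
def mapπ₁ : H1 𝓛 B →+ H1 𝓛 C := H1.map 𝓛.compat_id E.π_equiv

/-- The map `H²(A) → H²(B)`. -/
def mapI₂ : H2 𝓛 A →+ H2 𝓛 B := H2.map 𝓛.compat_id E.i_equiv

/-- The map `H²(B) → H²(C)`. -/
def mapπ₂ : H2 𝓛 B →+ H2 𝓛 C := H2.map 𝓛.compat_id E.π_equiv

/-- Exactness at `H¹(A)`. -/
lemma exact_A₁ (x : H1 𝓛 A) (hx : E.mapI₁ x = 0) : ∃ c, E.δ₀ c = x := by
  obtain ⟨u, rfl⟩ := H1.mk_surjective x
  obtain ⟨b, hb⟩ := H1.mk_eq_zero.mp hx
  have hinv : E.π b ∈ inv G C := fun g => by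
    rw [← E.π_smul, ← sub_eq_zero, ← map_sub, ← hb g]
    exact E.π_i _
  exact ⟨⟨E.π b, hinv⟩, E.δ₀_eq rfl fun g => hb g⟩

/-- Exactness at `H¹(B)`. -/
lemma exact_B₁ (x : H1 𝓛 B) (hx : E.mapπ₁ x = 0) : ∃ y, E.mapI₁ y = x := by
  obtain ⟨u, rfl⟩ := H1.mk_surjective x
  obtain ⟨c, hc⟩ := H1.mk_eq_zero.mp hx
  have hc' : ∀ g, E.π ((u : G → B) g) = g • c - c := fun g => hc g
  let v : G → B := fun g => (u : G → B) g - (g • E.sec c - E.sec c)
  have hv : ∀ g, E.π (v g) = 0 := fun g => by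
    simp only [v, map_sub, E.π_smul, E.π_sec, hc', sub_self]
  have hvc : IsConst₁ 𝓛 v :=
    u.2.1.comp₂ ((E.smooth.isConst₁_smul _).comp (· - E.sec c)) (· - ·)
  refine ⟨H1.mk ⟨fun g => E.pre (v g), hvc.comp E.pre, ?_⟩, ?_⟩
  · funext g h
    apply E.i_inj
    simp only [d₁_apply, map_add, map_sub, E.i_smul, E.i_pre (hv _), Pi.zero_apply, map_zero]
    simp only [v, smul_sub, mul_smul, (mem_Z1.mp u.2).2 g h]
    abel
  · refine H1.mk_eq_mk.mpr ⟨-E.sec c, fun g => ?_⟩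
    show E.i (E.pre (v g)) = _
    rw [E.i_pre (hv g)]
    simp only [v, smul_neg]
    abel

/-- Exactness at `H¹(C)`. -/
lemma exact_C₁ (x : H1 𝓛 C) (hx : E.δ₁ x = 0) : ∃ y, E.mapπ₁ y = x := by
  obtain ⟨u, rfl⟩ := H1.mk_surjective x
  obtain ⟨a, ha, ha'⟩ := H2.mk_eq_zero.mp hx
  refine ⟨H1.mk ⟨fun g => E.sec ((u : G → C) g) - E.i (a g),
    (u.2.1.comp E.sec).comp₂ (ha.comp E.i) (· - ·), ?_⟩, ?_⟩
  · funext g h
    have h2 : E.i (d₁ G A a g h) = d₁ G B (fun j => E.sec ((u : G → C) j)) g h := by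
      rw [ha', E.i_δ₁fun]
    simp only [d₁_apply, map_add, map_sub, E.i_smul] at h2
    rw [← sub_eq_zero] at h2
    simp only [d₁_apply, smul_sub, Pi.zero_apply]
    rw [← neg_eq_zero, ← h2]
    abel
  · refine H1.mk_eq_mk.mpr ⟨0, fun g => ?_⟩
    show E.π (E.sec ((u : G → C) g) - E.i (a g)) = _
    simp [E.π_sec, E.π_i]

/-- Exactness at `H²(A)`. -/
lemma exact_A₂ (x : H2 𝓛 A) (hx : E.mapI₂ x = 0) : ∃ y, E.δ₁ y = x := by
  obtain ⟨z, rfl⟩ := H2.mk_surjective x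
  obtain ⟨w, hw, hw'⟩ := H2.mk_eq_zero.mp hx
  have hc : ∀ g h, E.π (d₁ G B w g h) = 0 := fun g h => by rw [hw']; exact E.π_i _
  refine ⟨H1.mk ⟨fun g => E.π (w g), hw.comp E.π, funext fun g => funext fun h => ?_⟩, ?_⟩
  · have := hc g h
    simpa only [d₁_apply, map_add, map_sub, E.π_smul, Pi.zero_apply] using this
  · rw [E.δ₁_mk]
    exact (E.δ₁fun_eq hw (fun g => rfl) (fun g h => (congrFun (congrFun hw' g) h).symm)).symm

/-- Exactness at `H²(B)`. -/
lemma exact_B₂ (x : H2 𝓛 B) (hx : E.mapπ₂ x = 0) : ∃ y, E.mapI₂ y = x := by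
  obtain ⟨z, rfl⟩ := H2.mk_surjective x
  obtain ⟨w, hw, hw'⟩ := H2.mk_eq_zero.mp hx
  let v : G → B := fun g => E.sec (w g)
  have hv : IsConst₁ 𝓛 v := hw.comp E.sec
  let z' : G → G → B := fun g h => (z : G → G → B) g h - d₁ G B v g h
  have hz'c : IsConst₂ 𝓛 z' := z.2.1.comp₂ (isConst₂_d₁ E.smooth hv) (· - ·)
  have hz'π : ∀ g h, E.π (z' g h) = 0 := fun g h => by
    have h1 := congrFun (congrFun hw' g) h
    simp only [z', map_sub]
    rw [show E.π ((z : G → G → B) g h) = d₁ G C w g h from h1.symm]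
    simp [v, d₁_apply, E.π_smul, E.π_sec]
  refine ⟨H2.mk ⟨fun g h => E.pre (z' g h), hz'c.comp₂ hz'c (fun a _ => E.pre a),
    fun g h j => E.i_inj ?_⟩, ?_⟩
  · simp only [map_add, map_sub, map_zero, E.i_smul, E.i_pre (hz'π _ _)]
    have h1 := (z - ⟨_, d₁_mem_Z2 E.smooth hv⟩ : Z2 𝓛 B).2.2 g h j
    exact h1
  · refine H2.mk_eq_mk.mpr ⟨-v, hv.comp (- ·), funext fun g => funext fun h => ?_⟩
    show E.i (E.pre (z' g h)) = _
    rw [E.i_pre (hz'π g h), map_neg]
    simp only [z', Pi.add_apply, Pi.neg_apply]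
    abel

end ShortSeq

end Fermat.Agent.Duality.Coh

end
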