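import Fermat.Agent.Duality.Coh.Theta

/-!
# Coinduced modules from finitely many local groups

For finitely many homomorphisms `φ i : D i → G` and a `G`-module `A`, `PlaceMod` is the product of
the smooth coinduced modules of `A`, and `PlaceQuot` is its quotient by the diagonal copy of `A`.
-/

set_option autoImplicit false

noncomputable section

namespace Fermat.Agent.Duality.Coh

variable {G : Type} [Group G] (𝓛 : Levels G) {I : Type} {D : I → Type} [∀ i, Group (D i)]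
  (φ : ∀ i, D i →* G) (A : Type) [AddCommGroup A] [DistribMulAction G A]

/-- The families of level constant functions, equivariant on the left for the local groups. -/
def placeFamilies : AddSubgroup (I → G → A) where
  carrier := {f | ∀ i, IsConst₁ 𝓛 (f i) ∧ ∀ (d : D i) (g : G), f i (φ i d * g) = φ i d • f i g}
  add_mem' hf hf' i := ⟨(hf i).1.comp₂ (hf' i).1 (· + ·), fun d g => by
    simp only [Pi.add_apply, (hf i).2, (hf' i).2, smul_add]⟩
  zero_mem' i := ⟨isConst₁_const 0, fun d g => (smul_zero _).symm⟩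
  neg_mem' hf i := ⟨(hf i).1.comp (- ·), fun d g => by
    simp only [Pi.neg_apply, (hf i).2, smul_neg]⟩

/-- The product of the coinduced modules. -/
def PlaceMod : Type := placeFamilies 𝓛 φ A

instance placeModAddCommGroup : AddCommGroup (PlaceMod 𝓛 φ A) :=
  inferInstanceAs (AddCommGroup (placeFamilies 𝓛 φ A))

variable {𝓛 φ A}

/-- The value at a place and a group element. -/
def PlaceMod.val (i : I) (g : G) : PlaceMod 𝓛 φ A →+ A where
  toFun f := (f : placeFamilies 𝓛 φ A).1 i g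
  map_zero' := rfl
  map_add' _ _ := rfl

lemma PlaceMod.ext {f f' : PlaceMod 𝓛 φ A} (h : ∀ i g, PlaceMod.val i g f = PlaceMod.val i g f') :
    f = f' := Subtype.ext (funext fun i => funext fun g => h i g)

lemma PlaceMod.isConst₁_val (f : PlaceMod 𝓛 φ A) (i : I) :
    IsConst₁ 𝓛 fun g => PlaceMod.val i g f := ((f : placeFamilies 𝓛 φ A).2 i).1

lemma PlaceMod.val_left (f : PlaceMod 𝓛 φ A) (i : I) (d : D i) (g : G) :
    PlaceMod.val i (φ i d * g) f = φ i d • PlaceMod.val i g f :=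
  ((f : placeFamilies 𝓛 φ A).2 i).2 d g

/-- Build an element of `PlaceMod`. -/
def PlaceMod.of (f : I → G → A) (h : ∀ i, IsConst₁ 𝓛 (f i))
    (h' : ∀ i (d : D i) (g : G), f i (φ i d * g) = φ i d • f i g) : PlaceMod 𝓛 φ A :=
  (⟨f, fun i => ⟨h i, h' i⟩⟩ : placeFamilies 𝓛 φ A)

instance placeModAction : DistribMulAction G (PlaceMod 𝓛 φ A) where
  smul σ f := PlaceMod.of (fun i g => PlaceMod.val i (g * σ) f)
    (fun i => by
      obtain ⟨U, hU, h⟩ := PlaceMod.isConst₁_val f i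
      obtain ⟨N, hN, hNn, hNU⟩ := 𝓛.exists_normal hU
      refine ⟨N, hN, fun g s hs => ?_⟩
      show PlaceMod.val i (g * s * σ) f = PlaceMod.val i (g * σ) f
      rw [show g * s * σ = g * σ * (σ⁻¹ * s * σ⁻¹⁻¹) by group]
      exact h (g * σ) _ (hNU (hNn.conj_mem s hs σ⁻¹)))
    fun i d g => by rw [mul_assoc]; exact PlaceMod.val_left f i d (g * σ)
  one_smul f := PlaceMod.ext fun i g => by
    show PlaceMod.val i (g * 1) f = _
    rw [mul_one]
  mul_smul σ τ f := PlaceMod.ext fun i g => by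
    show PlaceMod.val i (g * (σ * τ)) f = PlaceMod.val i (g * σ * τ) f
    rw [mul_assoc]
  smul_zero σ := rfl
  smul_add σ f f' := rfl

lemma PlaceMod.val_smul (σ : G) (f : PlaceMod 𝓛 φ A) (i : I) (g : G) :
    PlaceMod.val i g (σ • f) = PlaceMod.val i (g * σ) f := rfl

lemma PlaceMod.isSmooth [Finite I] : IsSmooth 𝓛 (PlaceMod 𝓛 φ A) := fun f => by
  classical
  cases nonempty_fintype I
  have h : ∀ t : Finset I, ∃ U, 𝓛.ok U ∧
      ∀ i ∈ t, ∀ g, ∀ s ∈ U, PlaceMod.val i (g * s) f = PlaceMod.val i g f := by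
    intro t
    induction t using Finset.induction_on with
    | empty => exact ⟨⊤, 𝓛.top_ok, by simp⟩
    | insert i t _ ih =>
      obtain ⟨U, hU, h⟩ := ih
      obtain ⟨V, hV, h'⟩ := PlaceMod.isConst₁_val f i
      refine ⟨U ⊓ V, 𝓛.inf_ok hU hV, fun j hj g s hs => ?_⟩
      rcases Finset.mem_insert.mp hj with rfl | hj
      · exact h' g s hs.2
      · exact h j hj g s hs.1
  obtain ⟨U, hU, h⟩ := h Finset.univ
  exact ⟨U, hU, fun s hs => PlaceMod.ext fun i g => h i (Finset.mem_univ i) g s hs⟩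

lemma PlaceMod.torsion {n : ℕ} (hA : ∀ a : A, n • a = 0) (f : PlaceMod 𝓛 φ A) : n • f = 0 :=
  PlaceMod.ext fun i g => by rw [map_nsmul, hA, map_zero]

variable (𝓛 φ A)

/-- The diagonal copy of `A`. -/
def placeDiag : AddSubgroup (PlaceMod 𝓛 φ A) where
  carrier := {f | ∃ a : A, ∀ i g, PlaceMod.val i g f = g • a}
  add_mem' := fun ⟨a, ha⟩ ⟨b, hb⟩ =>
    ⟨a + b, fun i g => by rw [map_add, ha, hb, smul_add]⟩
  zero_mem' := ⟨0, fun i g => by rw [map_zero, smul_zero]⟩
  neg_mem' := fun ⟨a, ha⟩ => ⟨-a, fun i g => by rw [map_neg, ha, smul_neg]⟩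

lemma smul_mem_placeDiag (σ : G) (f : PlaceMod 𝓛 φ A) (hf : f ∈ placeDiag 𝓛 φ A) :
    σ • f ∈ placeDiag 𝓛 φ A := by
  obtain ⟨a, ha⟩ := hf
  exact ⟨σ • a, fun i g => by rw [PlaceMod.val_smul, ha, mul_smul]⟩

/-- The quotient by the diagonal. -/
def PlaceQuot : Type := PlaceMod 𝓛 φ A ⧸ placeDiag 𝓛 φ A

instance placeQuotAddCommGroup : AddCommGroup (PlaceQuot 𝓛 φ A) :=
  inferInstanceAs (AddCommGroup (PlaceMod 𝓛 φ A ⧸ placeDiag 𝓛 φ A))

/-- The projection. -/
def placeProj : PlaceMod 𝓛 φ A →+ PlaceQuot 𝓛 φ A := QuotientAddGroup.mk' _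

lemma placeProj_surjective : Function.Surjective (placeProj 𝓛 φ A) :=
  QuotientAddGroup.mk'_surjective _

lemma placeProj_eq_zero {f : PlaceMod 𝓛 φ A} : placeProj 𝓛 φ A f = 0 ↔ f ∈ placeDiag 𝓛 φ A :=
  QuotientAddGroup.eq_zero_iff f

/-- Translation on the quotient. -/
def placeQuotTranslate (σ : G) : PlaceQuot 𝓛 φ A →+ PlaceQuot 𝓛 φ A :=
  QuotientAddGroup.map _ _ (DistribSMul.toAddMonoidHom (PlaceMod 𝓛 φ A) σ)
    fun f hf => smul_mem_placeDiag 𝓛 φ A σ f hf

instance placeQuotAction : DistribMulAction G (PlaceQuot 𝓛 φ A) where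
  smul σ := placeQuotTranslate 𝓛 φ A σ
  one_smul x := by
    obtain ⟨f, rfl⟩ := placeProj_surjective 𝓛 φ A x
    exact congrArg (placeProj 𝓛 φ A) (one_smul G f)
  mul_smul σ τ x := by
    obtain ⟨f, rfl⟩ := placeProj_surjective 𝓛 φ A x
    exact congrArg (placeProj 𝓛 φ A) (mul_smul σ τ f)
  smul_zero σ := map_zero (placeQuotTranslate 𝓛 φ A σ)
  smul_add σ := map_add (placeQuotTranslate 𝓛 φ A σ)

lemma isEquivariant_placeProj : IsEquivariant (MonoidHom.id G) (placeProj 𝓛 φ A) :=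
  fun _ _ => rfl

lemma PlaceQuot.isSmooth [Finite I] : IsSmooth 𝓛 (PlaceQuot 𝓛 φ A) := fun x => by
  obtain ⟨f, rfl⟩ := placeProj_surjective 𝓛 φ A x
  obtain ⟨U, hU, h⟩ := PlaceMod.isSmooth f
  exact ⟨U, hU, fun s hs => congrArg (placeProj 𝓛 φ A) (h s hs)⟩

lemma PlaceQuot.torsion {n : ℕ} (hA : ∀ a : A, n • a = 0) (x : PlaceQuot 𝓛 φ A) : n • x = 0 := by
  obtain ⟨f, rfl⟩ := placeProj_surjective 𝓛 φ A x
  rw [← map_nsmul, PlaceMod.torsion hA, map_zero]

variable {A}

/-- The diagonal map. -/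
def placeEmb (hA : IsSmooth 𝓛 A) : A →+ PlaceMod 𝓛 φ A where
  toFun a := PlaceMod.of (fun _ g => g • a) (fun _ => hA.isConst₁_smul a)
    fun i d g => mul_smul (φ i d) g a
  map_zero' := PlaceMod.ext fun _ g => smul_zero g
  map_add' a b := PlaceMod.ext fun _ g => smul_add g a b

lemma val_placeEmb (hA : IsSmooth 𝓛 A) (a : A) (i : I) (g : G) :
    PlaceMod.val i g (placeEmb 𝓛 φ hA a) = g • a := rfl

/-- The short exact sequence of the diagonal. -/
def placeSeq [Finite I] [Nonempty I] (hA : IsSmooth 𝓛 A) :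
    ShortSeq 𝓛 A (PlaceMod 𝓛 φ A) (PlaceQuot 𝓛 φ A) where
  i := placeEmb 𝓛 φ hA
  π := placeProj 𝓛 φ A
  i_equiv σ a := PlaceMod.ext fun i g => by
    show g • σ • a = (g * σ) • a
    rw [mul_smul]
  π_equiv := isEquivariant_placeProj 𝓛 φ A
  i_inj a b h := by
    obtain ⟨i⟩ := ‹Nonempty I›
    have := congrArg (PlaceMod.val i 1) h
    rwa [val_placeEmb, val_placeEmb, one_smul, one_smul] at this
  π_surj := placeProj_surjective 𝓛 φ A
  exact f hf := by
    obtain ⟨a, ha⟩ := (placeProj_eq_zero 𝓛 φ A).mp hf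
    exact ⟨a, PlaceMod.ext fun i g => (ha i g).symm⟩
  π_i a := (placeProj_eq_zero 𝓛 φ A).mpr ⟨a, fun i g => rfl⟩
  smooth := PlaceMod.isSmooth

variable {𝓛 φ}

/-- Evaluation at the identity double coset. -/
def PlaceMod.ev (i : I) : PlaceMod 𝓛 φ A →+ A := PlaceMod.val i 1

lemma PlaceMod.isEquivariant_ev (i : I) {B : Type} [AddCommGroup B] [DistribMulAction (D i) B]
    {ψ : A →+ B} (hψ : IsEquivariant (φ i) ψ) :
    IsEquivariant (φ i) (ψ.comp (PlaceMod.ev (𝓛 := 𝓛) (φ := φ) i)) := fun d f => by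
  show ψ (PlaceMod.val i (1 * φ i d) f) = d • ψ (PlaceMod.val i 1 f)
  rw [← hψ, ← PlaceMod.val_left, one_mul, mul_one]

section Iota

variable [Fintype I] [Nonempty I] {B : I → Type} [∀ i, AddCommGroup (B i)]
  [∀ i, DistribMulAction (D i) (B i)] {𝓜 : ∀ i, Levels (D i)}
  (hc : ∀ i, (𝓜 i).Compat 𝓛 (φ i)) {ψ : ∀ i, A →+ B i} (hψ : ∀ i, IsEquivariant (φ i) (ψ i))
  {T : Type} [AddCommGroup T] (inv : ∀ i, H2 (𝓜 i) (B i) →+ T)

/-- The sum of the local functionals. -/
def placeSum : H2 𝓛 (PlaceMod 𝓛 φ A) →+ T :=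
  ∑ i, (inv i).comp (H2.map (hc i) (PlaceMod.isEquivariant_ev i (hψ i)))

omit [Nonempty I] in
lemma placeSum_apply (x : H2 𝓛 (PlaceMod 𝓛 φ A)) :
    placeSum hc hψ inv x = ∑ i, inv i (H2.map (hc i) (PlaceMod.isEquivariant_ev i (hψ i)) x) := by
  simp [placeSum]

/-- A functional on `H²` of the quotient extending the sum of the local functionals. -/
theorem exists_iota {p : ℕ} [Fact p.Prime] (hA : IsSmooth 𝓛 A) (hpA : ∀ a : A, p • a = 0)
    (hpT : ∀ t : T, p • t = 0)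
    (hrec : ∀ x : H2 𝓛 A, ∑ i, inv i (H2.map (hc i) (hψ i) x) = 0) :
    ∃ ι : H2 𝓛 (PlaceQuot 𝓛 φ A) →+ T,
      ∀ x, ι ((placeSeq 𝓛 φ hA).mapπ₂ x) = placeSum hc hψ inv x := by
  refine exists_hom_factor (H2.torsion (PlaceQuot.torsion 𝓛 φ A hpA)) hpT _ _ fun x hx => ?_
  obtain ⟨y, rfl⟩ := (placeSeq 𝓛 φ hA).exact_B₂ x hx
  rw [placeSum_apply, ← hrec y]
  refine Finset.sum_congr rfl fun i _ => congrArg (inv i) ?_
  obtain ⟨z, rfl⟩ := H2.mk_surjective y
  refine congrArg H2.mk (Subtype.ext (funext fun g => funext fun h => congrArg (ψ i) ?_))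
  exact one_smul G _

end Iota

section Hom

variable {M : Type} [AddCommGroup M] [DistribMulAction G M]

/-- The invariant homomorphism into `PlaceMod` attached to local equivariant homomorphisms. -/
def homOfLocal [Finite M] (hM : IsSmooth 𝓛 M) (c : I → M →+ A)
    (hcc : ∀ i (d : D i) (m : M), c i (φ i d • m) = φ i d • c i m) :
    inv G (HomMod M (PlaceMod 𝓛 φ A)) :=
  ⟨HomMod.of
    { toFun := fun m => PlaceMod.of (fun i g => c i (g • m))
        (fun i => (hM.isConst₁_smul m).comp (c i)) fun i d g => by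
          show c i ((φ i d * g) • m) = _
          rw [mul_smul, hcc]
      map_zero' := PlaceMod.ext fun i g => by
        show c i (g • 0) = 0
        rw [smul_zero, map_zero]
      map_add' := fun m m' => PlaceMod.ext fun i g => by
        show c i (g • (m + m')) = c i (g • m) + c i (g • m')
        rw [smul_add, map_add] },
    fun σ => HomMod.ext fun m => PlaceMod.ext fun i g => by
      show c i ((g * σ) • σ⁻¹ • m) = c i (g • m)
      rw [smul_smul, mul_inv_cancel_right]⟩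

/-- An invariant homomorphism into `PlaceMod` is determined by its values at the identity. -/
lemma val_of_mem_inv {F : HomMod M (PlaceMod 𝓛 φ A)} (hF : F ∈ inv G (HomMod M (PlaceMod 𝓛 φ A)))
    (i : I) (g : G) (m : M) : PlaceMod.val i g (F m) = PlaceMod.val i 1 (F (g • m)) := by
  rw [show F (g • m) = g • F m from HomMod.isEquivariant_of_mem_inv hF g m, PlaceMod.val_smul,
    one_mul]

variable [∀ i, DistribMulAction (D i) M] (hDM : ∀ i (d : D i) (m : M), φ i d • m = d • m)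
  {B : I → Type} [∀ i, AddCommGroup (B i)] [∀ i, DistribMulAction (D i) (B i)]

/-- Evaluation of homomorphisms at a place. -/
def homEv (ψ : ∀ i, A →+ B i) (i : I) :
    HomMod M (PlaceMod 𝓛 φ A) →+ HomMod M (B i) where
  toFun F := HomMod.of (((ψ i).comp (PlaceMod.ev i)).comp F.toHom)
  map_zero' := HomMod.ext fun _ => map_zero ((ψ i).comp (PlaceMod.ev (𝓛 := 𝓛) (φ := φ) i))
  map_add' _ _ := HomMod.ext fun _ => map_add ((ψ i).comp (PlaceMod.ev (𝓛 := 𝓛) (φ := φ) i)) _ _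

include hDM in
lemma isEquivariant_homEv {ψ : ∀ i, A →+ B i} (hψ : ∀ i, IsEquivariant (φ i) (ψ i)) (i : I) :
    IsEquivariant (φ i) (homEv (𝓛 := 𝓛) (φ := φ) (M := M) ψ i) := fun d F => HomMod.ext fun m => by
  show ψ i (PlaceMod.ev (𝓛 := 𝓛) (φ := φ) i (φ i d • F ((φ i d)⁻¹ • m))) =
    d • ψ i (PlaceMod.ev (𝓛 := 𝓛) (φ := φ) i (F (d⁻¹ • m)))
  rw [← map_inv, hDM]
  exact PlaceMod.isEquivariant_ev i (hψ i) d _

include hDM in
/-- Injectivity of the localisation of `H¹` of homomorphisms into `PlaceMod`. -/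
theorem eq_zero_of_homEv [Finite M] (hM : IsSmooth 𝓛 M) {𝓜 : ∀ i, Levels (D i)}
    (hc : ∀ i, (𝓜 i).Compat 𝓛 (φ i))
    {ψ : ∀ i, A →+ B i} (hψ : ∀ i, IsEquivariant (φ i) (ψ i))
    (hbij : ∀ i, Function.Bijective (ψ i)) (x : H1 𝓛 (HomMod M (PlaceMod 𝓛 φ A)))
    (hx : ∀ i, H1.map (hc i) (isEquivariant_homEv hDM hψ i) x = 0) : x = 0 := by
  obtain ⟨z, rfl⟩ := H1.mk_surjective x
  have hloc : ∀ i, ∃ b : M →+ A, ∀ (d : D i) (m : M),
      PlaceMod.val i 1 ((z : G → HomMod M (PlaceMod 𝓛 φ A)) (φ i d) (φ i d • m)) =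
        φ i d • b m - b (φ i d • m) := fun i => by
    obtain ⟨b, hb⟩ := H1.mk_eq_zero.mp ((H1.map_mk _ _ z).symm.trans (hx i))
    let e := AddEquiv.ofBijective (ψ i) (hbij i)
    refine ⟨e.symm.toAddMonoidHom.comp b.toHom, fun d m => (hbij i).1 ?_⟩
    have h1 := DFunLike.congr_fun (hb d) (d • m)
    rw [HomMod.sub_apply, HomMod.smul_apply_smul] at h1
    rw [map_sub, hψ i]
    show _ = d • ψ i (e.symm (b m)) - ψ i (e.symm (b (φ i d • m)))
    rw [show ∀ y, ψ i (e.symm y) = y from e.apply_symm_apply,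
      show ∀ y, ψ i (e.symm y) = y from e.apply_symm_apply, hDM]
    exact h1
  choose b hb using hloc
  have hz := (mem_Z1.mp z.2).2
  have hΦ : ∀ (m : M) (i : I) (g x : G),
      PlaceMod.val i x ((z : G → HomMod M (PlaceMod 𝓛 φ A)) g m) =
        PlaceMod.val i 1 ((z : G → HomMod M (PlaceMod 𝓛 φ A)) (x * g) (x • m)) -
          PlaceMod.val i 1 ((z : G → HomMod M (PlaceMod 𝓛 φ A)) x (x • m)) := fun m i g x => by
    rw [hz x g, HomMod.add_apply, map_add, add_sub_cancel_right, HomMod.smul_apply_smul,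
      PlaceMod.val_smul, one_mul]
  refine H1.mk_eq_zero.mpr ⟨HomMod.of
    { toFun := fun m => PlaceMod.of
        (fun i x => PlaceMod.val i 1 ((z : G → HomMod M (PlaceMod 𝓛 φ A)) x (x • m)) + b i (x • m))
        (fun i => (z.2.1.comp₂ (hM.isConst₁_smul m) fun F m' => PlaceMod.val i 1 (F m')).comp₂
          ((hM.isConst₁_smul m).comp (b i)) (· + ·))
        (fun i d x => ?_)
      map_zero' := PlaceMod.ext fun i x => by
        show PlaceMod.val i 1 ((z : G → HomMod M (PlaceMod 𝓛 φ A)) x (x • 0)) + b i (x • 0) = 0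
        simp only [smul_zero, map_zero, add_zero]
      map_add' := fun m m' => PlaceMod.ext fun i x => by
        show PlaceMod.val i 1 ((z : G → HomMod M (PlaceMod 𝓛 φ A)) x (x • (m + m'))) +
            b i (x • (m + m')) =
          (PlaceMod.val i 1 ((z : G → HomMod M (PlaceMod 𝓛 φ A)) x (x • m)) + b i (x • m)) +
          (PlaceMod.val i 1 ((z : G → HomMod M (PlaceMod 𝓛 φ A)) x (x • m')) + b i (x • m'))
        simp only [smul_add, map_add]
        abel }, fun g => HomMod.ext fun m => PlaceMod.ext fun i x => ?_⟩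
  · rw [hz (φ i d) x, HomMod.add_apply, map_add, mul_smul, HomMod.smul_apply_smul,
      PlaceMod.val_smul, one_mul, hb i d (x • m), smul_add,
      ← PlaceMod.val_left ((z : G → HomMod M (PlaceMod 𝓛 φ A)) x (x • m)) i d 1, mul_one]
    abel
  · rw [hΦ m i g x, HomMod.sub_apply, map_sub]
    show _ = (PlaceMod.val i 1 ((z : G → HomMod M (PlaceMod 𝓛 φ A)) (x * g)
        ((x * g) • g⁻¹ • m)) + b i ((x * g) • g⁻¹ • m)) -
      (PlaceMod.val i 1 ((z : G → HomMod M (PlaceMod 𝓛 φ A)) x (x • m)) + b i (x • m))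
    rw [smul_smul, mul_inv_cancel_right]
    abel

end Hom

end Fermat.Agent.Duality.Coh

end
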