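import Fermat.Agent.Duality.Coh.Cup

/-!
# The projection formula for cup products
-/

set_option autoImplicit false

noncomputable section

namespace Fermat.Agent.Duality.Coh

variable {G : Type} [Group G] {𝓛 : Levels G} {A B C : Type} [AddCommGroup A]
  [DistribMulAction G A] [AddCommGroup B] [DistribMulAction G B] [AddCommGroup C]
  [DistribMulAction G C] {P : A →+ B →+ C} (hP : IsPairing (G := G) P) (H : Subgroup G)

include hP in
/-- A pairing is compatible with the action of a subgroup. -/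
lemma IsPairing.restrictSubgroup : IsPairing (G := H) P := fun g a b => hP (g : G) a b

variable [Fintype (G ⧸ H)] (hH : 𝓛.ok H) (hB : IsSmooth 𝓛 B)
  (hB' : IsSmooth (𝓛.restrict H) B)

/-- `cor (res a ∪ b) = a ∪ cor b`. -/
theorem cor₂_cup₁₁_res (a : H1 𝓛 A) (b : H1 (𝓛.restrict H) B) :
    cor₂ H hH (cup₁₁ (hP.restrictSubgroup H) hB' (res₁ H a) b) =
      cup₁₁ hP hB a (cor₁ H hH b) := by
  obtain ⟨a, rfl⟩ := H1.mk_surjective a
  obtain ⟨b, rfl⟩ := H1.mk_surjective b
  show H2.mk _ = H2.mk _
  rw [H2.mk_eq_mk]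
  let u : G → C := fun g => ∑ x : G ⧸ H,
    P ((a : G → A) (g • x).out) ((g • x).out • (b : H → B) (cosetFactor H g x))
  refine ⟨u, ?_, funext fun g => funext fun h => ?_⟩
  · obtain ⟨V, hV, hbV⟩ := b.2.1
    obtain ⟨N, hN, hNn, hNH, hNV⟩ := exists_normal_level hH hV
    refine ⟨N, hN, fun g s hs => Finset.sum_congr rfl fun x _ => ?_⟩
    obtain ⟨hx, w, hw, he⟩ := cosetFactor_mul_right H hNH g hs x
    rw [mul_smul g s x, hx, he, hbV _ _ (hNV w hw)]
  · rw [Pi.add_apply, Pi.add_apply]
    show cor₂fun H (fun v w : H => P ((a : G → A) v) ((v : G) • (b : H → B) w)) g h =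
      P ((a : G → A) g) (g • cor₁fun H (b : H → B) h) + d₁ G C u g h
    simp only [cor₂fun, cor₁fun, AddMonoidHom.coe_mk, ZeroHom.coe_mk, u, d₁_apply,
      Finset.smul_sum, map_sum]
    rw [show ∑ x : G ⧸ H, P ((a : G → A) (g • x).out)
      ((g • x).out • (b : H → B) (cosetFactor H g x))
        = ∑ x : G ⧸ H, P ((a : G → A) (g • h • x).out)
            ((g • h • x).out • (b : H → B) (cosetFactor H g (h • x))) from
      (Fintype.sum_equiv (MulAction.toPerm h) _ _ fun x => rfl).symm,
      ← Finset.sum_sub_distrib, ← Finset.sum_add_distrib, ← Finset.sum_add_distrib]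
    refine Finset.sum_congr rfl fun x _ => ?_
    have e1 := (mem_Z1.mp a.2).2 (g • h • x).out (cosetFactor H g (h • x))
    have e2 := (mem_Z1.mp a.2).2 g (h • x).out
    have e3 := (mem_Z1.mp b.2).2 (cosetFactor H g (h • x)) (cosetFactor H h x)
    rw [out_mul_cosetFactor, e2, ← sub_eq_iff_eq_add] at e1
    rw [← cosetFactor_mul, Subgroup.smul_def] at e3
    rw [← hP, smul_smul (g • h • x).out, out_mul_cosetFactor, ← e1, e3, mul_smul g h x, smul_add,
      smul_smul (g • h • x).out, out_mul_cosetFactor, mul_smul g (h • x).out, ← hP g]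
    simp only [map_add, map_sub, AddMonoidHom.add_apply, AddMonoidHom.sub_apply]
    abel

end Fermat.Agent.Duality.Coh

end
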