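import Fermat.Agent.Duality.Coh.Cup

/-!
# Duality maps attached to a functional on `H²`

For a module `C` with a functional `ι` on `H²(C)`, this file defines the maps
`θ² : H²(A) → Hom_G(A, C)^*` and `θ¹ : H¹(A) → H¹(Hom(A, C))^*`, and proves the compatibility
with short exact sequences needed for dévissage.
-/

set_option autoImplicit false

noncomputable section

namespace Fermat.Agent.Duality.Coh

private lemma exists_extend_addHom {p : ℕ} [Fact p.Prime] {Y T : Type} [AddCommGroup Y]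
    [AddCommGroup T] [Module (ZMod p) Y] [Module (ZMod p) T] (R : AddSubgroup Y) (g : R →+ T) :
    ∃ ψ : Y →+ T, ∀ r : R, ψ r = g r := by
  let P : Submodule (ZMod p) Y := AddSubgroup.toZModSubmodule p R
  let g' : P →+ T := g
  obtain ⟨ψ, hψ⟩ := LinearMap.exists_extend (p := P) (g'.toZModLinearMap p)
  exact ⟨ψ.toAddMonoidHom, fun r => LinearMap.congr_fun hψ r⟩

/-- Homomorphisms into a group killed by `p` extend from the image of a map between groups
killed by `p`. -/
lemma exists_hom_factor {p : ℕ} [Fact p.Prime] {X Y T : Type} [AddCommGroup X] [AddCommGroup Y]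
    [AddCommGroup T] (hY : ∀ y : Y, p • y = 0) (hT : ∀ t : T, p • t = 0) (f : X →+ Y)
    (φ : X →+ T) (h : ∀ x, f x = 0 → φ x = 0) : ∃ ψ : Y →+ T, ∀ x, ψ (f x) = φ x := by
  classical
  let : Module (ZMod p) Y := AddCommGroup.zmodModule hY
  let : Module (ZMod p) T := AddCommGroup.zmodModule hT
  have hwd : f.ker ≤ φ.ker := fun x hx => h x hx
  let g : f.range →+ T :=
    (QuotientAddGroup.lift f.ker φ hwd).comp
      (QuotientAddGroup.quotientKerEquivRange f).symm.toAddMonoidHom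
  obtain ⟨ψ, hψ⟩ := exists_extend_addHom (p := p) f.range g
  refine ⟨ψ, fun x => ?_⟩
  rw [show ψ (f x) = g ⟨f x, x, rfl⟩ from hψ ⟨f x, x, rfl⟩]
  show QuotientAddGroup.lift f.ker φ hwd
    ((QuotientAddGroup.quotientKerEquivRange f).symm ⟨f x, x, rfl⟩) = φ x
  rw [show (QuotientAddGroup.quotientKerEquivRange f).symm ⟨f x, x, rfl⟩
      = (x : X ⧸ f.ker) from (AddEquiv.symm_apply_eq _).mpr rfl]
  rfl

variable {G : Type} [Group G] {𝓛 : Levels G}

section Torsion

variable {A : Type} [AddCommGroup A] [DistribMulAction G A]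

lemma H1.torsion {n : ℕ} (hA : ∀ a : A, n • a = 0) (x : H1 𝓛 A) : n • x = 0 := by
  obtain ⟨z, rfl⟩ := H1.mk_surjective x
  rw [← map_nsmul, show n • z = 0 from Subtype.ext (funext fun g => hA _), map_zero]

lemma H2.torsion {n : ℕ} (hA : ∀ a : A, n • a = 0) (x : H2 𝓛 A) : n • x = 0 := by
  obtain ⟨z, rfl⟩ := H2.mk_surjective x
  rw [← map_nsmul, show n • z = 0 from Subtype.ext (funext fun g => funext fun h => hA _),
    map_zero]

lemma HomMod.torsion {n : ℕ} {C : Type} [AddCommGroup C] (hC : ∀ c : C, n • c = 0)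
    (φ : HomMod A C) : n • φ = 0 :=
  AddMonoidHom.ext (f := (n • φ).toHom) (g := (0 : HomMod A C).toHom) fun _ => hC _

end Torsion

variable {A B M C T : Type} [AddCommGroup A] [DistribMulAction G A] [AddCommGroup B]
  [DistribMulAction G B] [AddCommGroup M] [DistribMulAction G M] [AddCommGroup C]
  [DistribMulAction G C] [AddCommGroup T]

/-- Applying an invariant homomorphism to a degree two class, bilinearly. -/
def applyInv : H2 𝓛 A →+ inv G (HomMod A C) →+ H2 𝓛 C :=
  AddMonoidHom.flip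
    { toFun := fun c => H2.map 𝓛.compat_id (HomMod.isEquivariant_of_mem_inv c.2)
      map_zero' := by
        refine AddMonoidHom.ext fun x => ?_
        obtain ⟨z, rfl⟩ := H2.mk_surjective x
        rw [H2.map_mk, AddMonoidHom.zero_apply, ← map_zero H2.mk]
        exact congrArg H2.mk (Subtype.ext rfl)
      map_add' := fun c d => by
        refine AddMonoidHom.ext fun x => ?_
        obtain ⟨z, rfl⟩ := H2.mk_surjective x
        rw [AddMonoidHom.add_apply, H2.map_mk, H2.map_mk, H2.map_mk, ← map_add]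
        exact congrArg H2.mk (Subtype.ext rfl) }

lemma applyInv_apply (x : H2 𝓛 A) (c : inv G (HomMod A C)) :
    applyInv x c = H2.map 𝓛.compat_id (HomMod.isEquivariant_of_mem_inv c.2) x := rfl

lemma applyInv_mk (z : Z2 𝓛 A) (c : inv G (HomMod A C)) :
    applyInv (H2.mk z) c =
      H2.mk (Z2.map 𝓛.compat_id (HomMod.isEquivariant_of_mem_inv c.2) z) := rfl

variable (ι : H2 𝓛 C →+ T)

/-- The duality map in degree two. -/
def theta₂ : H2 𝓛 A →+ inv G (HomMod A C) →+ T where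
  toFun x := ι.comp (applyInv x)
  map_zero' := by rw [map_zero, AddMonoidHom.comp_zero]
  map_add' x y := by rw [map_add, AddMonoidHom.comp_add]

lemma theta₂_apply (x : H2 𝓛 A) (c : inv G (HomMod A C)) : theta₂ ι x c = ι (applyInv x c) := rfl

/-- The duality map in degree one. -/
def theta₁ (hA : IsSmooth 𝓛 A) : H1 𝓛 A →+ H1 𝓛 (HomMod A C) →+ T where
  toFun a := ι.comp ((cup₁₁ (P := HomMod.eval) isPairing_eval hA).flip a)
  map_zero' := by rw [map_zero, AddMonoidHom.comp_zero]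
  map_add' x y := by rw [map_add, AddMonoidHom.comp_add]

lemma theta₁_apply (hA : IsSmooth 𝓛 A) (a : H1 𝓛 A) (e : H1 𝓛 (HomMod A C)) :
    theta₁ ι hA a e = ι (cup₁₁ (P := HomMod.eval) isPairing_eval hA e a) := rfl

/-- Precomposition with a map. -/
def HomMod.pre (φ : A →+ M) : HomMod M C →+ HomMod A C where
  toFun f := HomMod.of (f.toHom.comp φ)
  map_zero' := rfl
  map_add' _ _ := rfl

lemma HomMod.isEquivariant_pre {φ : A →+ M} (hφ : IsEquivariant (MonoidHom.id G) φ) :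
    IsEquivariant (MonoidHom.id G) (HomMod.pre (C := C) φ) := fun g f => HomMod.ext fun a => by
  show g • f (g⁻¹ • φ a) = g • f (φ (g⁻¹ • a))
  have h : φ (g⁻¹ • a) = g⁻¹ • φ a := hφ g⁻¹ a
  rw [h]

/-- Precomposition on invariants. -/
def HomMod.preInv {φ : A →+ M} (hφ : IsEquivariant (MonoidHom.id G) φ) :
    inv G (HomMod M C) →+ inv G (HomMod A C) where
  toFun f := ⟨HomMod.pre φ f, (HomMod.isEquivariant_pre hφ).map_inv f.2⟩
  map_zero' := rfl
  map_add' _ _ := rfl

lemma theta₂_map {φ : A →+ M} (hφ : IsEquivariant (MonoidHom.id G) φ) (y : H2 𝓛 A)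
    (c : inv G (HomMod M C)) :
    theta₂ ι (H2.map 𝓛.compat_id hφ y) c = theta₂ ι y (HomMod.preInv hφ c) := by
  obtain ⟨z, rfl⟩ := H2.mk_surjective y
  rfl

lemma theta₁_map {φ : A →+ M} (hφ : IsEquivariant (MonoidHom.id G) φ) (hA : IsSmooth 𝓛 A)
    (hM : IsSmooth 𝓛 M) (a : H1 𝓛 A) (e : H1 𝓛 (HomMod M C)) :
    theta₁ ι hM (H1.map 𝓛.compat_id hφ a) e =
      theta₁ ι hA a (H1.map 𝓛.compat_id (HomMod.isEquivariant_pre hφ) e) := by
  obtain ⟨z, rfl⟩ := H1.mk_surjective a
  obtain ⟨w, rfl⟩ := H1.mk_surjective e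
  refine congrArg ι (congrArg H2.mk (Subtype.ext (funext fun g => funext fun h => ?_)))
  show (w : G → HomMod M C) g (g • φ ((z : G → A) h)) =
    (w : G → HomMod M C) g (φ (g • (z : G → A) h))
  rw [show φ (g • (z : G → A) h) = g • φ ((z : G → A) h) from hφ g _]

/-- The exactness at the invariants of the quotient. -/
lemma ShortSeq.exact_C₀ (E : ShortSeq 𝓛 A M B) (c : inv G B) (hc : E.δ₀ c = 0) :
    ∃ m ∈ inv G M, E.π m = c := by
  obtain ⟨a, ha⟩ := H1.mk_eq_zero.mp hc
  refine ⟨E.sec c - E.i a, fun g => ?_, by rw [map_sub, E.π_sec, E.π_i, sub_zero]⟩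
  have h := congrArg E.i (ha g)
  rw [E.i_δ₀fun, map_sub, E.i_smul, sub_eq_sub_iff_add_eq_add] at h
  rw [smul_sub, sub_eq_sub_iff_add_eq_add, h, add_comm]

lemma ShortSeq.δ₀_π (E : ShortSeq 𝓛 A M B) {m : M} (hm : m ∈ inv G M) :
    E.δ₀ ⟨E.π m, E.π_equiv.map_inv hm⟩ = 0 := by
  rw [E.δ₀_eq (b := m) rfl (z := 0) (fun g => by
    rw [hm g, sub_self]; exact map_zero E.i), map_zero]

lemma ShortSeq.mapI₁_δ₀ (E : ShortSeq 𝓛 A M B) (c : inv G B) : E.mapI₁ (E.δ₀ c) = 0 :=
  H1.mk_eq_zero.mpr ⟨E.sec c, fun g => E.i_δ₀fun c g⟩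

lemma ShortSeq.mapπ₁_mapI₁ (E : ShortSeq 𝓛 A M B) (a : H1 𝓛 A) : E.mapπ₁ (E.mapI₁ a) = 0 := by
  obtain ⟨z, rfl⟩ := H1.mk_surjective a
  exact H1.mk_eq_zero.mpr ⟨0, fun g => (E.π_i _).trans (by simp)⟩

lemma ShortSeq.mapI₂_δ₁ (E : ShortSeq 𝓛 A M B) (b : H1 𝓛 B) : E.mapI₂ (E.δ₁ b) = 0 := by
  obtain ⟨z, rfl⟩ := H1.mk_surjective b
  exact H2.mk_eq_zero.mpr ⟨fun g => E.sec ((z : G → B) g), z.2.1.comp E.sec,
    funext fun g => funext fun h => (E.i_δ₁fun z g h).symm⟩

/-- The contravariant short exact sequence of Hom modules. -/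
def ShortSeq.homSeq (E : ShortSeq 𝓛 A M B) [Finite M] (hC : IsSmooth 𝓛 C)
    (hext : Function.Surjective (HomMod.pre (C := C) E.i)) :
    ShortSeq 𝓛 (HomMod B C) (HomMod M C) (HomMod A C) where
  i := HomMod.pre E.π
  π := HomMod.pre E.i
  i_equiv := HomMod.isEquivariant_pre E.π_equiv
  π_equiv := HomMod.isEquivariant_pre E.i_equiv
  i_inj f f' h := HomMod.ext fun b => by
    obtain ⟨m, rfl⟩ := E.π_surj b
    exact DFunLike.congr_fun h m
  π_surj := hext
  exact f hf := by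
    refine ⟨HomMod.of (AddMonoidHom.liftOfSurjective E.π E.π_surj ⟨f.toHom, fun m hm => ?_⟩), ?_⟩
    · obtain ⟨a, rfl⟩ := E.exact m hm
      exact DFunLike.congr_fun hf a
    · exact HomMod.ext fun m => AddMonoidHom.liftOfRightInverse_comp_apply _ _
        (Function.rightInverse_surjInv E.π_surj) _ m
  π_i f := HomMod.ext fun a => (congrArg f (E.π_i a)).trans (map_zero f)
  smooth := HomMod.isSmooth E.smooth hC

section Seq

variable (E : ShortSeq 𝓛 A M B) [Finite M] (hC : IsSmooth 𝓛 C)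
  (hext : Function.Surjective (HomMod.pre (C := C) E.i))

/-- The cup product with a connecting class. -/
lemma cup₁₁_δ₀ (c : inv G (HomMod A C)) (b : H1 𝓛 B) :
    cup₁₁ (P := HomMod.eval) isPairing_eval E.smooth_right ((E.homSeq hC hext).δ₀ c) b =
      -applyInv (E.δ₁ b) c := by
  obtain ⟨x, rfl⟩ := H1.mk_surjective b
  rw [E.δ₁_mk, applyInv_mk, ← map_neg]
  refine H2.mk_eq_mk.mpr ⟨fun g => (E.homSeq hC hext).sec c (E.sec ((x : G → B) g)),
    (x.2.1.comp E.sec).comp fun m => (E.homSeq hC hext).sec c m, funext fun g => funext fun h => ?_⟩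
  set d := (E.homSeq hC hext).sec c with hd
  have h1 := DFunLike.congr_fun ((E.homSeq hC hext).i_δ₀fun c g) (g • E.sec ((x : G → B) h))
  rw [HomMod.sub_apply, HomMod.smul_apply_smul] at h1
  have h2 : (c : HomMod A C) ((E.δ₁fun x : G → G → A) g h) =
      d (d₁ G M (fun j => E.sec ((x : G → B) j)) g h) := by
    rw [← E.i_δ₁fun]
    exact (DFunLike.congr_fun ((E.homSeq hC hext).π_sec c) _).symm
  show ((E.homSeq hC hext).δ₀fun c : G → HomMod B C) g (g • (x : G → B) h) =
    -((c : HomMod A C) ((E.δ₁fun x : G → G → A) g h)) +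
      d₁ G C (fun j => d (E.sec ((x : G → B) j))) g h
  rw [h2, d₁_apply, d₁_apply, map_add, map_sub]
  have h3 : ((E.homSeq hC hext).δ₀fun c : G → HomMod B C) g (g • (x : G → B) h) =
      g • d (E.sec ((x : G → B) h)) - d (g • E.sec ((x : G → B) h)) := by
    rw [← h1]
    show _ = ((E.homSeq hC hext).δ₀fun c : G → HomMod B C) g (E.π (g • E.sec ((x : G → B) h)))
    rw [E.π_smul, E.π_sec]
  rw [h3]
  abel

variable {p : ℕ} [Fact p.Prime] (hpC : ∀ c : C, p • c = 0) (hpT : ∀ t : T, p • t = 0)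

include hC hext hpC hpT in
/-- The four lemma for injectivity in degree two. -/
lemma theta₂_injective_of_seq (hA : Function.Injective (theta₂ (A := A) (C := C) ι))
    (hB : Function.Injective (theta₂ (A := B) (C := C) ι))
    (hB' : Function.Surjective (theta₁ (A := B) (C := C) ι E.smooth_right)) :
    Function.Injective (theta₂ (A := M) (C := C) ι) := by
  refine (injective_iff_map_eq_zero _).mpr fun x hx => ?_
  have hπx : E.mapπ₂ x = 0 := by
    refine (injective_iff_map_eq_zero _).mp hB _ (AddMonoidHom.ext fun c => ?_)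
    show theta₂ ι (H2.map 𝓛.compat_id E.π_equiv x) c = 0
    rw [theta₂_map, hx]
    rfl
  obtain ⟨y, rfl⟩ := E.exact_B₂ x hπx
  have hker : ∀ c, (E.homSeq hC hext).δ₀ c = 0 → theta₂ ι y c = 0 := fun c hc => by
    obtain ⟨m, hm, hmc⟩ := (E.homSeq hC hext).exact_C₀ c hc
    have h1 := DFunLike.congr_fun hx ⟨m, hm⟩
    rw [show E.mapI₂ y = H2.map 𝓛.compat_id E.i_equiv y from rfl, theta₂_map,
      show HomMod.preInv E.i_equiv ⟨m, hm⟩ = c from Subtype.ext hmc] at h1
    exact h1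
  obtain ⟨φ, hφ⟩ := exists_hom_factor (H1.torsion (HomMod.torsion hpC)) hpT
    (E.homSeq hC hext).δ₀ (theta₂ ι y) hker
  obtain ⟨b, hb⟩ := hB' φ
  have hy : y = -E.δ₁ b := hA (AddMonoidHom.ext fun c => by
    rw [← hφ c, ← hb, theta₁_apply, cup₁₁_δ₀ E hC hext, map_neg, map_neg]
    rfl)
  rw [hy, map_neg, E.mapI₂_δ₁, neg_zero]

include hC hext hpC hpT in
/-- The four lemma for surjectivity in degree one. -/
lemma theta₁_surjective_of_seq (hA : Function.Injective (theta₂ (A := A) (C := C) ι))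
    (hA' : Function.Surjective (theta₁ (A := A) (C := C) ι E.smooth_left))
    (hB' : Function.Surjective (theta₁ (A := B) (C := C) ι E.smooth_right)) :
    Function.Surjective (theta₁ (A := M) (C := C) ι E.smooth) := by
  intro φ
  obtain ⟨b, hb⟩ := hB' (φ.comp (E.homSeq hC hext).mapI₁)
  have hδ : E.δ₁ b = 0 := by
    refine (injective_iff_map_eq_zero _).mp hA _ (AddMonoidHom.ext fun c => ?_)
    have h1 := DFunLike.congr_fun hb ((E.homSeq hC hext).δ₀ c)
    rw [AddMonoidHom.comp_apply, ShortSeq.mapI₁_δ₀, map_zero, theta₁_apply,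
      cup₁₁_δ₀ E hC hext, map_neg, neg_eq_zero] at h1
    exact h1
  obtain ⟨a, rfl⟩ := E.exact_C₁ b hδ
  have hker : ∀ e, (E.homSeq hC hext).mapπ₁ e = 0 → (φ - theta₁ ι E.smooth a) e = 0 :=
    fun e he => by
    obtain ⟨f, rfl⟩ := (E.homSeq hC hext).exact_B₁ e he
    have h1 := DFunLike.congr_fun hb f
    rw [AddMonoidHom.sub_apply, sub_eq_zero, ← AddMonoidHom.comp_apply φ, ← h1]
    exact theta₁_map ι E.π_equiv E.smooth E.smooth_right a f
  obtain ⟨ψ, hψ⟩ := exists_hom_factor (H1.torsion (HomMod.torsion hpC)) hpT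
    (E.homSeq hC hext).mapπ₁ (φ - theta₁ ι E.smooth a) hker
  obtain ⟨a', ha'⟩ := hA' ψ
  refine ⟨a + E.mapI₁ a', AddMonoidHom.ext fun e => ?_⟩
  have h2 := hψ e
  rw [← ha', AddMonoidHom.sub_apply, eq_sub_iff_add_eq] at h2
  rw [map_add, AddMonoidHom.add_apply, ← h2, add_comm]
  exact congrArg (· + _) (theta₁_map ι E.i_equiv E.smooth_left E.smooth a' e)

end Seq

end Fermat.Agent.Duality.Coh

end
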